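/-
NODAL core (architect helper155).  Abstract "counting + graph" core for covers of two-chart models
whose special fibre is reduced with several components.

Setting (language of `Fermat.Agent.KLB`): `A` a DVR with uniformiser `π`, `P = Frac(A)(x)`,
`F / P` finite separable, `E / F` finite Galois.  Charts are the predicates
`IsIntegral (Algebra.adjoin A {x}) y`, `IsIntegral (Algebra.adjoin A {x⁻¹}) y`.
A *vertical* valuation subring is one which induces the Gauss valuation ring `Og` on `P`.

No hypothesis of the form "`n` is invertible in the residue field" is made anywhere: the only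
hypothesis on the cover is that every vertical valuation of `F` splits completely in `E`.
-/
import Fermat.Agent.KLB.Abs.Cech
import Fermat.Agent.KLB.Abs.Purity

set_option autoImplicit false

noncomputable section

namespace Fermat.Agent.Nodal

open Fermat.Agent.KLB

section Nonunits

variable {E : Type*} [Field E] (W : ValuationSubring E)

theorem zero_mem_nonunits : (0 : E) ∈ W.nonunits := by
  rw [ValuationSubring.mem_nonunits_iff, map_zero]; exact zero_lt_one

theorem add_mem_nonunits {a b : E} (ha : a ∈ W.nonunits) (hb : b ∈ W.nonunits) :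
    a + b ∈ W.nonunits := by
  rw [ValuationSubring.mem_nonunits_iff] at *
  exact Valuation.map_add_lt _ ha hb

theorem neg_mem_nonunits {a : E} (ha : a ∈ W.nonunits) : -a ∈ W.nonunits := by
  rw [ValuationSubring.mem_nonunits_iff] at *
  rwa [Valuation.map_neg]

theorem sub_mem_nonunits {a b : E} (ha : a ∈ W.nonunits) (hb : b ∈ W.nonunits) :
    a - b ∈ W.nonunits := by
  rw [sub_eq_add_neg]; exact add_mem_nonunits W ha (neg_mem_nonunits W hb)

theorem mem_of_mem_nonunits {a : E} (ha : a ∈ W.nonunits) : a ∈ W := by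
  rw [ValuationSubring.mem_nonunits_iff] at ha
  exact (ValuationSubring.valuation_le_one_iff W a).mp ha.le

theorem mul_mem_nonunits {a b : E} (ha : a ∈ W) (hb : b ∈ W.nonunits) : a * b ∈ W.nonunits := by
  rw [ValuationSubring.mem_nonunits_iff] at *
  rw [map_mul]
  exact lt_of_le_of_lt (mul_le_of_le_one_left' ((ValuationSubring.valuation_le_one_iff W a).mpr ha)) hb

end Nonunits

section Defs

variable (A : Type*) {P : Type*} (E : Type*) [CommRing A] [Field P] [Field E]
  [Algebra A P] [Algebra P E] (x : P)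

/-- The elements of the chart `x` (integral over `A[x]`) which vanish at all `W ∈ T`. -/
def ChV (T : Set (ValuationSubring E)) : AddSubgroup E where
  carrier := {y | IsIntegral (Algebra.adjoin A {x}) y ∧ ∀ W ∈ T, y ∈ W.nonunits}
  add_mem' := fun ha hb => ⟨ha.1.add hb.1, fun W hW => add_mem_nonunits W (ha.2 W hW) (hb.2 W hW)⟩
  zero_mem' := ⟨isIntegral_zero, fun W _ => zero_mem_nonunits W⟩
  neg_mem' := fun ha => ⟨ha.1.neg, fun W hW => neg_mem_nonunits W (ha.2 W hW)⟩

/-- The sections of `O(k · ∞)` which vanish at all `W ∈ T`: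
`y` is integral over `A[x]`, `x⁻ᵏ y` is integral over `A[x⁻¹]`. -/
def SecV (T : Set (ValuationSubring E)) (k : ℕ) : AddSubgroup E where
  carrier := {y | IsIntegral (Algebra.adjoin A {x}) y ∧
    IsIntegral (Algebra.adjoin A {x⁻¹}) ((algebraMap P E x)⁻¹ ^ k * y) ∧ ∀ W ∈ T, y ∈ W.nonunits}
  add_mem' := fun {a b} ha hb => ⟨ha.1.add hb.1, by rw [mul_add]; exact ha.2.1.add hb.2.1,
    fun W hW => add_mem_nonunits W (ha.2.2 W hW) (hb.2.2 W hW)⟩
  zero_mem' := ⟨isIntegral_zero, by rw [mul_zero]; exact isIntegral_zero,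
    fun W _ => zero_mem_nonunits W⟩
  neg_mem' := fun {a} ha => ⟨ha.1.neg, by rw [mul_neg]; exact ha.2.1.neg,
    fun W hW => neg_mem_nonunits W (ha.2.2 W hW)⟩

variable {A E x}

theorem mem_ChV {T : Set (ValuationSubring E)} {y : E} :
    y ∈ ChV A E x T ↔ IsIntegral (Algebra.adjoin A {x}) y ∧ ∀ W ∈ T, y ∈ W.nonunits := Iff.rfl

theorem mem_SecV {T : Set (ValuationSubring E)} {k : ℕ} {y : E} :
    y ∈ SecV A E x T k ↔ IsIntegral (Algebra.adjoin A {x}) y ∧
      IsIntegral (Algebra.adjoin A {x⁻¹}) ((algebraMap P E x)⁻¹ ^ k * y) ∧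
        ∀ W ∈ T, y ∈ W.nonunits := Iff.rfl

theorem ChV_anti {T T' : Set (ValuationSubring E)} (h : T ⊆ T') : ChV A E x T' ≤ ChV A E x T :=
  fun _ hy => ⟨hy.1, fun W hW => hy.2 W (h hW)⟩

theorem SecV_anti {T T' : Set (ValuationSubring E)} (h : T ⊆ T') (k : ℕ) :
    SecV A E x T' k ≤ SecV A E x T k :=
  fun _ hy => ⟨hy.1, hy.2.1, fun W hW => hy.2.2 W (h hW)⟩

end Defs

section Up

variable {F : Type*} (E : Type*) [Field F] [Field E] [Algebra F E]

/-- The valuation subrings of `E` lying over an element of `T`. -/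
def up (T : Set (ValuationSubring F)) : Set (ValuationSubring E) :=
  {W | W.comap (algebraMap F E) ∈ T}

variable {E}

theorem mem_up {T : Set (ValuationSubring F)} {W : ValuationSubring E} :
    W ∈ up E T ↔ W.comap (algebraMap F E) ∈ T := Iff.rfl

end Up

section Base

variable (A : Type*) {P : Type*} (F : Type*) [CommRing A] [IsDomain A] [IsDiscreteValuationRing A]
  [Field P] [Field F] [Algebra A P] [Algebra P F] [Algebra A F]

/-- The base of the nodal core: a two-chart model whose special fibre is reduced, with normal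
components (`nor`) crossing "transversally" (`rad`).  `vert` is the set of ALL vertical valuation
subrings of `F`. -/
structure Base (x : P) (π : A) (Og : Subring P) (vert : Finset (ValuationSubring F)) : Prop where
  coord : IsCoord A x
  irr : Irreducible π
  og : IsLocSub (ndvd (coord.prime irr)) Og
  vert_iff : ∀ V : ValuationSubring F, V ∈ vert ↔ V.toSubring.comap (algebraMap P F) = Og
  /-- `e = 1` -/
  unif : ∀ V ∈ vert, ∀ y ∈ V.nonunits, (algebraMap A F π)⁻¹ * y ∈ V
  /-- the image of the chart `x` in the residue field of `V` is integrally closed -/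
  nor₁ : ∀ V ∈ vert, ∀ z ∈ V, ∀ p : Polynomial F, p.Monic →
    (∀ j, IsIntegral (Algebra.adjoin A {x}) (p.coeff j)) → p.eval z ∈ V.nonunits →
    ∃ f : F, IsIntegral (Algebra.adjoin A {x}) f ∧ z - f ∈ V.nonunits
  nor₂ : ∀ V ∈ vert, ∀ z ∈ V, ∀ p : Polynomial F, p.Monic →
    (∀ j, IsIntegral (Algebra.adjoin A {x⁻¹}) (p.coeff j)) → p.eval z ∈ V.nonunits →
    ∃ f : F, IsIntegral (Algebra.adjoin A {x⁻¹}) f ∧ z - f ∈ V.nonunits
  /-- the image in the component `V` of the ideal of the components in `T` is a radical ideal -/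
  rad₁ : ∀ T : Set (ValuationSubring F), T ⊆ ↑vert → ∀ V ∈ vert, V ∉ T → ∀ (f : F) (m : ℕ),
    IsIntegral (Algebra.adjoin A {x}) f → (∃ g ∈ ChV A F x T, f ^ m - g ∈ V.nonunits) →
    ∃ g ∈ ChV A F x T, f - g ∈ V.nonunits
  rad₂ : ∀ T : Set (ValuationSubring F), T ⊆ ↑vert → ∀ V ∈ vert, V ∉ T → ∀ (f : F) (m : ℕ),
    IsIntegral (Algebra.adjoin A {x⁻¹}) f → (∃ g ∈ ChV A F x⁻¹ T, f ^ m - g ∈ V.nonunits) →
    ∃ g ∈ ChV A F x⁻¹ T, f - g ∈ V.nonunits

end Base

section Cover

variable (A : Type*) {F : Type*} (E : Type*) [CommRing A] [Field F] [Field E] [Algebra A E]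
  [Algebra F E]

/-- Every `V ∈ vert` splits completely in `E`. -/
structure Split (π : A) (vert : Finset (ValuationSubring F)) : Prop where
  /-- `e = 1` -/
  unif : ∀ W : ValuationSubring E, W.comap (algebraMap F E) ∈ vert →
    ∀ y ∈ W.nonunits, (algebraMap A E π)⁻¹ * y ∈ W
  /-- `f = 1` -/
  resdeg : ∀ W : ValuationSubring E, W.comap (algebraMap F E) ∈ vert →
    ∀ y ∈ W, ∃ z : F, y - algebraMap F E z ∈ W.nonunits
  /-- the Galois group permutes the extensions of `V` transitively -/
  trans : ∀ W W' : ValuationSubring E, W.comap (algebraMap F E) ∈ vert →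
    W.comap (algebraMap F E) = W'.comap (algebraMap F E) →
    ∃ γ : E ≃ₐ[F] E, W' = W.comap (γ : E →+* E)
  /-- ... and freely -/
  free : ∀ W : ValuationSubring E, W.comap (algebraMap F E) ∈ vert →
    ∀ γ : E ≃ₐ[F] E, W.comap (γ : E →+* E) = W → γ = 1

end Cover

section Props

/-- The numerical hypothesis: `rank H⁰(O_E(k)) ≥ [E : F] · rank H⁰(O_F(k))` for arbitrarily
large `k` (in characteristic zero: `E / F` unramified, Riemann's theorem), expressed through the
number of sections of the special fibres. -/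
def Count (A : Type*) {P : Type*} (F E : Type*) [CommRing A] [Field P] [Field F] [Field E]
    [Algebra A P] [Algebra P F] [Algebra P E] [Algebra F E] (x : P)
    (vert : Finset (ValuationSubring F)) : Prop :=
  ∀ k₁ : ℕ, ∃ k, k₁ ≤ k ∧ (SecV A F x ↑vert k).relIndex (SecV A F x ∅ k) ≠ 0 ∧
    ((SecV A F x ↑vert k).relIndex (SecV A F x ∅ k)) ^ Module.finrank F E ≤
      (SecV A E x (up E (↑vert : Set (ValuationSubring F))) k).relIndex (SecV A E x ∅ k)

/-- (LC') in the chart `x`: distinct components of the cover over the same component `V` of the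
base are disjoint. -/
def LC (A : Type*) {P F : Type*} (E : Type*) [CommRing A] [Field P] [Field F] [Field E]
    [Algebra A P] [Algebra P E] [Algebra F E] (x : P) (vert : Finset (ValuationSubring F)) : Prop :=
  ∀ V ∈ vert, ∀ W₁ : ValuationSubring E, W₁.comap (algebraMap F E) = V →
    ∃ c : E, IsIntegral (Algebra.adjoin A {x}) c ∧ c - 1 ∈ W₁.nonunits ∧
      ∀ W : ValuationSubring E, W.comap (algebraMap F E) = V → W ≠ W₁ → c ∈ W.nonunits

/-- `g₀` fixes the crossing points of the chart `x`. -/
def FixesCrossings (A : Type*) {P : Type*} (F : Type*) [CommRing A] [Field P] [Field F]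
    [Algebra A P] [Algebra P F] (x : P) (vert : Finset (ValuationSubring F)) (g₀ : F ≃+* F) :
    Prop :=
  ∀ 𝔪 : Ideal (integralClosure (Algebra.adjoin A {x}) F), 𝔪.IsMaximal →
    ∀ V ∈ vert, ∀ V' ∈ vert, V ≠ V' →
    (∀ b : integralClosure (Algebra.adjoin A {x}) F, (b : F) ∈ V.nonunits → b ∈ 𝔪) →
    (∀ b : integralClosure (Algebra.adjoin A {x}) F, (b : F) ∈ V'.nonunits → b ∈ 𝔪) →
    ∀ b ∈ 𝔪, ∀ b' : integralClosure (Algebra.adjoin A {x}) F, (b' : F) = g₀ b → b' ∈ 𝔪

/-- The `A`-module of sections of `O(k · ∞)`. -/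
def Sec (A : Type*) {P : Type*} (E : Type*) [CommRing A] [Field P] [Field E] [Algebra A P]
    [Algebra P E] [Algebra A E] [IsScalarTower A P E] (x : P) (k : ℕ) : Submodule A E where
  carrier := {y | IsIntegral (Algebra.adjoin A {x}) y ∧
    IsIntegral (Algebra.adjoin A {x⁻¹}) ((algebraMap P E x)⁻¹ ^ k * y)}
  add_mem' := fun {a b} ha hb => ⟨ha.1.add hb.1, by rw [mul_add]; exact ha.2.add hb.2⟩
  zero_mem' := ⟨isIntegral_zero, by rw [mul_zero]; exact isIntegral_zero⟩
  smul_mem' := fun a y hy =>
    ⟨(intSub (E := E) (Algebra.adjoin A {x})).smul_mem a hy.1, by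
      rw [mul_smul_comm]
      exact (intSub (E := E) (Algebra.adjoin A {x⁻¹})).smul_mem a hy.2⟩

end Props

end Fermat.Agent.Nodal
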