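/-
NODAL core (architect helper155): N0, symmetry of the two charts, vertical valuations of `E`.
See `Fermat/Agent/Nodal/README.md` for the blueprint.
-/
import Fermat.Agent.Nodal.Defs
import Fermat.Agent.KLB.Kum.Val

set_option autoImplicit false

noncomputable section

namespace Fermat.Agent.Nodal

open Fermat.Agent.KLB

variable {A P F E : Type*} [CommRing A] [IsDomain A] [IsDiscreteValuationRing A] [Field P]
  [Field F] [Field E] [Algebra A P] [Algebra P F] [Algebra A F] [IsScalarTower A P F]
  [Algebra F E] [Algebra P E] [Algebra A E] [IsScalarTower P F E] [IsScalarTower A P E]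
  [IsScalarTower A F E]
  [FiniteDimensional P F] [FiniteDimensional F E] [FiniteDimensional P E]
  [Algebra.IsSeparable P F] [Algebra.IsSeparable P E] [IsGalois F E]
  {x : P} {π : A} {Og : Subring P} {vert : Finset (ValuationSubring F)}

omit [IsScalarTower A P F] [FiniteDimensional P F] [Algebra.IsSeparable P F] in
theorem Base.inv (hB : Base A F x π Og vert) : Base A F x⁻¹ π Og vert where
  coord := hB.coord.inv
  irr := hB.irr
  og := hB.coord.isLocSub_inv hB.irr hB.og
  vert_iff := hB.vert_iff
  unif := hB.unif
  nor₁ := hB.nor₂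
  nor₂ := (inv_inv x).symm ▸ hB.nor₁
  rad₁ := hB.rad₂
  rad₂ := (inv_inv x).symm ▸ hB.rad₁

omit [IsDomain A] [IsDiscreteValuationRing A] [Algebra A P] [Algebra A F] [IsScalarTower A P F]
  [Algebra A E] [IsScalarTower A P E] [IsScalarTower A F E] [FiniteDimensional P F]
  [FiniteDimensional F E] [FiniteDimensional P E] [Algebra.IsSeparable P F]
  [Algebra.IsSeparable P E] [IsGalois F E] [CommRing A] in
theorem comap_comap (W : ValuationSubring E) :
    (W.comap (algebraMap F E)).toSubring.comap (algebraMap P F) =
      W.toSubring.comap (algebraMap P E) := by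
  ext a
  rw [Subring.mem_comap, Subring.mem_comap, IsScalarTower.algebraMap_apply P F E]
  exact Iff.rfl

omit [IsDomain A] [IsDiscreteValuationRing A] [Algebra A P] [Algebra A F] [IsScalarTower A P F]
  [Algebra A E] [IsScalarTower A P E] [IsScalarTower A F E] [FiniteDimensional P F]
  [FiniteDimensional F E] [FiniteDimensional P E] [Algebra.IsSeparable P F]
  [Algebra.IsSeparable P E] [IsGalois F E] [CommRing A] [Field P] [Algebra P F] [Algebra P E]
  [IsScalarTower P F E] in
theorem mem_nonunits_comap {K : Type*} [Field K] (φ : K →+* E) (W : ValuationSubring E) (y : K) :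
    y ∈ (W.comap φ).nonunits ↔ φ y ∈ W.nonunits := by
  rw [ValuationSubring.mem_nonunits_iff_or, ValuationSubring.mem_nonunits_iff_or,
    ValuationSubring.mem_comap, map_inv₀, map_eq_zero]

/-- a valuation subring of `E` is vertical iff it lies over an element of `vert`. -/
theorem mem_up_vert_iff (hB : Base A F x π Og vert) (W : ValuationSubring E) :
    W ∈ up E (↑vert : Set (ValuationSubring F)) ↔ W.toSubring.comap (algebraMap P E) = Og := by
  rw [mem_up, Finset.mem_coe, hB.vert_iff, comap_comap]

/-- the extensions of `V` form a finite nonempty set with at most `[E : F]` elements. -/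
theorem finite_fibre (hS : Split A E π vert) {V : ValuationSubring F} (hV : V ∈ vert) :
    Finite {W : ValuationSubring E // W.comap (algebraMap F E) = V} ∧
      Nonempty {W : ValuationSubring E // W.comap (algebraMap F E) = V} ∧
      Nat.card {W : ValuationSubring E // W.comap (algebraMap F E) = V} ≤ Module.finrank F E := by
  obtain ⟨W₀, hW₀⟩ := exists_valuationSubring_comap_eq (E := E) V
  have hfix : ∀ γ : E ≃ₐ[F] E, (W₀.comap (γ : E →+* E)).comap (algebraMap F E) = V := by
    intro γ
    rw [← hW₀]
    ext a
    rw [ValuationSubring.mem_comap, ValuationSubring.mem_comap, ValuationSubring.mem_comap]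
    have : (γ : E →+* E) (algebraMap F E a) = algebraMap F E a := γ.commutes a
    rw [this]
  let Φ : (E ≃ₐ[F] E) → {W : ValuationSubring E // W.comap (algebraMap F E) = V} :=
    fun γ => ⟨W₀.comap (γ : E →+* E), hfix γ⟩
  have hΦ : Function.Surjective Φ := by
    rintro ⟨W, hW⟩
    obtain ⟨γ, hγ⟩ := hS.trans W₀ W (hW₀ ▸ hV) (hW₀.trans hW.symm)
    exact ⟨γ, Subtype.ext hγ.symm⟩
  refine ⟨Finite.of_surjective Φ hΦ, ⟨⟨W₀, hW₀⟩⟩, ?_⟩
  rw [← IsGalois.card_aut_eq_finrank F E]
  exact Nat.card_le_card_of_surjective Φ hΦ

theorem finite_up_vert (hS : Split A E π vert) :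
    (up E (↑vert : Set (ValuationSubring F))).Finite := by
  have h : up E (↑vert : Set (ValuationSubring F)) =
      ⋃ V ∈ vert, {W : ValuationSubring E | W.comap (algebraMap F E) = V} := by
    ext W
    simp [mem_up]
  rw [h]
  refine Set.Finite.biUnion vert.finite_toSet (fun V hV => ?_)
  exact Set.finite_coe_iff.1 (finite_fibre hS hV).1

end Fermat.Agent.Nodal
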