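/-
NODAL core (architect helper155): N1, vertical valuation subrings of a finite extension `E` of `P`.
See `Fermat/Agent/Nodal/README.md` for the blueprint.
-/
import Fermat.Agent.Nodal.Defs
import Fermat.Agent.KLB.Kum.Val

set_option autoImplicit false

noncomputable section

namespace Fermat.Agent.Nodal

open Fermat.Agent.KLB

section VertAux

variable {S L F : Type*} [CommRing S] [IsDomain S] [IsNoetherianRing S]
  [Field L] [Field F] [Algebra S L] [IsFractionRing S L] [Algebra L F] [Algebra S F]
  [IsScalarTower S L F]

/-- General form of `isIntegral_Og_of_forall_mem`. -/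
theorem Vert_isIntegral_of_forall_mem [FiniteDimensional L F]
    {π : S} (hπ : Prime π) {Oπ : Subring L} (hOπ : IsLocSub (ndvd hπ) Oπ) {y : F}
    (h : ∀ V : ValuationSubring F, V.toSubring.comap (algebraMap L F) = Oπ → y ∈ V) :
    IsIntegral Oπ y := by
  by_contra hcon
  have hyR : y ∉ (integralClosure Oπ F).toSubring := hcon
  obtain ⟨V, hRV, hyV⟩ := Subring.exists_le_valuationSubring_of_isIntegrallyClosedIn hyR
  -- the image of `Oπ` lies in `V`
  have hOV : ∀ a ∈ Oπ, algebraMap L F a ∈ V := fun a ha =>
    hRV ((integralClosure Oπ F).algebraMap_mem ⟨a, ha⟩)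
  set P : F := algebraMap L F (algebraMap S L π) with hP
  have hπ0 : algebraMap S L π ≠ 0 := by
    rw [Ne, map_eq_zero_iff _ (IsFractionRing.injective S L)]
    exact hπ.ne_zero
  have hP0 : P ≠ 0 := by
    rw [hP, Ne, map_eq_zero]
    exact hπ0
  have hPV : P ∈ V := hOV _ (hOπ.algebraMap_mem π)
  by_cases hinv : P⁻¹ ∈ V
  · -- then `V` contains `L`, hence everything
    have hLV : ∀ a : L, algebraMap L F a ∈ V.toSubring := by
      intro a
      rcases hOπ.mem_or_exists_pow_mul hπ a with ha | ⟨k, u, hu, -, -, hau⟩
      · exact hOV a ha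
      · have h1 : algebraMap L F a = algebraMap L F u * P⁻¹ ^ (k + 1) := by
          rw [← hau, map_mul, map_pow, ← hP, inv_pow, mul_assoc,
            mul_inv_cancel₀ (pow_ne_zero _ hP0), mul_one]
        rw [h1]
        exact V.mul_mem _ _ (hOV u hu) (pow_mem hinv _)
    have : IsIntegrallyClosedIn V.toSubring F := inferInstanceAs (IsIntegrallyClosedIn V F)
    have h2 : (integralClosure L F).toSubring ≤ V.toSubring :=
      Subring.integralClosure_le_iff.mpr hLV
    exact hyV (h2 (Algebra.IsIntegral.isIntegral (R := L) y))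
  · -- then `V` lies over `Oπ`
    have hcomap : V.toSubring.comap (algebraMap L F) = Oπ := by
      ext a
      constructor
      · intro ha
        have ha' : algebraMap L F a ∈ V := ha
        rcases hOπ.mem_or_exists_pow_mul hπ a with ha0 | ⟨k, u, -, hu, hu0, hau⟩
        · exact ha0
        · exfalso
          apply hinv
          have h1 : P⁻¹ = algebraMap L F a * P ^ k * algebraMap L F u⁻¹ := by
            have hu0' : algebraMap L F u ≠ 0 := by
              rw [Ne, map_eq_zero]
              exact hu0
            rw [map_inv₀, ← hau, map_mul, map_pow, ← hP]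
            rw [← hau, map_mul, map_pow, ← hP] at hu0'
            have ha0 : algebraMap L F a ≠ 0 := left_ne_zero_of_mul hu0'
            field_simp
            ring
          rw [h1]
          exact V.mul_mem _ _ (V.mul_mem _ _ ha' (pow_mem hPV _)) (hOV _ hu)
      · intro ha
        exact hOV a ha
    exact hyV (h V hcomap)

omit [IsNoetherianRing S] in
/-- General form of `mem_of_isIntegral₁`, `mem_of_isIntegral₂`, `mem_of_isIntegral₁₂`. -/
theorem Vert_mem_of_isIntegral {T : Submonoid S} {O : Subring L} (hO : IsLocSub T O)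
    {W : ValuationSubring F} (hW : W.toSubring.comap (algebraMap L F) = O) {y : F}
    (hy : IsIntegral S y) : y ∈ W := by
  have hSW : ∀ s : S, algebraMap S F s ∈ W.toSubring := by
    intro s
    have h1 : algebraMap S L s ∈ W.toSubring.comap (algebraMap L F) := by
      rw [hW]
      exact hO.algebraMap_mem s
    rw [IsScalarTower.algebraMap_apply S L F]
    exact h1
  have : IsIntegrallyClosedIn W.toSubring F := inferInstanceAs (IsIntegrallyClosedIn W F)
  have h2 : (integralClosure S F).toSubring ≤ W.toSubring :=
    Subring.integralClosure_le_iff.mpr hSW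
  exact h2 hy

omit [IsNoetherianRing S] in
/-- General form of `unif_mem_nonunits`. -/
theorem Vert_unif_mem_nonunits {π : S} (hπ : Prime π) {Oπ : Subring L}
    (hOπ : IsLocSub (ndvd hπ) Oπ)
    {W : ValuationSubring F} (hW : W.toSubring.comap (algebraMap L F) = Oπ) :
    algebraMap S F π ∈ W.nonunits := by
  have hπ0 : algebraMap S L π ≠ 0 := by
    rw [Ne, map_eq_zero_iff _ (IsFractionRing.injective S L)]
    exact hπ.ne_zero
  have hmem : algebraMap S F π ∈ W :=
    Vert_mem_of_isIntegral hOπ hW isIntegral_algebraMap
  rw [ValuationSubring.mem_nonunits_iff]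
  refine lt_of_le_of_ne ((ValuationSubring.valuation_le_one_iff W _).mpr hmem) ?_
  intro h1
  have hinv : (algebraMap S F π)⁻¹ ∈ W := by
    rw [← ValuationSubring.valuation_le_one_iff, map_inv₀, h1, inv_one]
  have h2 : (algebraMap S L π)⁻¹ ∈ W.toSubring.comap (algebraMap L F) := by
    show algebraMap L F (algebraMap S L π)⁻¹ ∈ W
    rw [map_inv₀, ← IsScalarTower.algebraMap_apply S L F]
    exact hinv
  rw [hW] at h2
  obtain ⟨d, hd, s, hs⟩ := (hOπ _).mp h2
  apply hd
  refine ⟨s, IsFractionRing.injective S L ?_⟩
  rw [map_mul, ← hs]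
  field_simp

end VertAux

variable {A P E : Type*} [CommRing A] [IsDomain A] [IsDiscreteValuationRing A] [Field P] [Field E]
  [Algebra A P] [Algebra P E] [Algebra A E] [IsScalarTower A P E] [FiniteDimensional P E]
  {x : P} (hx : IsCoord A x) {π : A} (hπ : Irreducible π)
  {Og : Subring P} (hOg : IsLocSub (ndvd (hx.prime hπ)) Og)

include hOg

/-- The integral closure of the Gauss valuation ring is the intersection of the vertical
valuation subrings (adapt the proof of `KLB.isIntegral_of_mem_of_unique`). -/
theorem isIntegral_Og_of_forall_mem {y : E}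
    (h : ∀ W : ValuationSubring E, W.toSubring.comap (algebraMap P E) = Og → y ∈ W) :
    IsIntegral Og y := by
  have := hx.frac
  have := hx.isNoetherianRing
  exact Vert_isIntegral_of_forall_mem (hx.prime hπ) hOg h

theorem mem_of_isIntegral₁ {W : ValuationSubring E}
    (hW : W.toSubring.comap (algebraMap P E) = Og) {y : E}
    (hy : IsIntegral (Algebra.adjoin A {x}) y) : y ∈ W := by
  have := hx.frac
  exact Vert_mem_of_isIntegral hOg hW hy

theorem mem_of_isIntegral₂ {W : ValuationSubring E}
    (hW : W.toSubring.comap (algebraMap P E) = Og) {y : E}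
    (hy : IsIntegral (Algebra.adjoin A {x⁻¹}) y) : y ∈ W := by
  have := hx.inv.frac
  exact Vert_mem_of_isIntegral (hx.isLocSub_inv hπ hOg) hW hy

theorem mem_of_isIntegral₁₂ {W : ValuationSubring E}
    (hW : W.toSubring.comap (algebraMap P E) = Og) {y : E}
    (hy : IsIntegral (Algebra.adjoin A {x, x⁻¹}) y) : y ∈ W := by
  have := hx.frac₂
  exact Vert_mem_of_isIntegral (hx.isLocSub₂ hπ hOg) hW hy

theorem unif_mem_nonunits {W : ValuationSubring E}
    (hW : W.toSubring.comap (algebraMap P E) = Og) : algebraMap A E π ∈ W.nonunits := by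
  have := hx.frac
  have h := Vert_unif_mem_nonunits (hx.prime hπ) hOg hW
  rwa [← IsScalarTower.algebraMap_apply A (Algebra.adjoin A {x}) E] at h

end Fermat.Agent.Nodal
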