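/-
NODAL core (architect helper155): N5, elements of the chart of `E` are congruent to elements of the chart of `F`.
See `Fermat/Agent/Nodal/README.md` for the blueprint.
-/
import Fermat.Agent.Nodal.Basic
import Fermat.Agent.Nodal.Vert

set_option autoImplicit false

noncomputable section

namespace Fermat.Agent.Nodal

open Fermat.Agent.KLB

section CongrChartAux

variable {E : Type*} [Field E] (W : ValuationSubring E)

theorem congrChart_sum_mem_nonunits {ι : Type*} (s : Finset ι) (g : ι → E)
    (h : ∀ i ∈ s, g i ∈ W.nonunits) : ∑ i ∈ s, g i ∈ W.nonunits := by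
  classical
  induction s using Finset.induction_on with
  | empty => simp
  | insert a s ha ih =>
    rw [Finset.sum_insert ha]
    exact add_mem_nonunits W (h a (Finset.mem_insert_self a s))
      (ih fun i hi => h i (Finset.mem_insert_of_mem hi))

theorem congrChart_pow_sub_pow_mem {a b : E} (ha : a ∈ W) (hb : b ∈ W) (hab : a - b ∈ W.nonunits)
    (n : ℕ) : a ^ n - b ^ n ∈ W.nonunits := by
  rw [← geom_sum₂_mul]
  exact mul_mem_nonunits W
    (sum_mem fun i _ => mul_mem (pow_mem ha _) (pow_mem hb _)) hab

theorem congrChart_eval_sub_eval_mem (q : Polynomial E) (hq : ∀ j, q.coeff j ∈ W) {a b : E}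
    (ha : a ∈ W) (hb : b ∈ W) (hab : a - b ∈ W.nonunits) : q.eval a - q.eval b ∈ W.nonunits := by
  rw [Polynomial.eval_eq_sum_range, Polynomial.eval_eq_sum_range, ← Finset.sum_sub_distrib]
  refine congrChart_sum_mem_nonunits W _ _ fun i _ => ?_
  rw [← mul_sub]
  exact mul_mem_nonunits W (hq i) (congrChart_pow_sub_pow_mem W ha hb hab i)

theorem congrChart_prod_sub_pow_mem {ι : Type*} (s : Finset ι) (a : E) (b : ι → E) (ha : a ∈ W)
    (hb : ∀ i ∈ s, b i ∈ W.nonunits) : ∏ i ∈ s, (a - b i) - a ^ s.card ∈ W.nonunits := by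
  classical
  induction s using Finset.induction_on with
  | empty => simp
  | insert i s hi ih =>
    rw [Finset.prod_insert hi, Finset.card_insert_of_notMem hi]
    have h1 : (a - b i) * ∏ j ∈ s, (a - b j) - a ^ (s.card + 1)
        = a * (∏ j ∈ s, (a - b j) - a ^ s.card) - (∏ j ∈ s, (a - b j)) * b i := by ring
    rw [h1]
    refine sub_mem_nonunits W
      (mul_mem_nonunits W ha (ih fun j hj => hb j (Finset.mem_insert_of_mem hj)))
      (mul_mem_nonunits W (prod_mem fun j hj => sub_mem ha
        (mem_of_mem_nonunits W (hb j (Finset.mem_insert_of_mem hj))))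
        (hb i (Finset.mem_insert_self i s)))

end CongrChartAux

section CongrChartAux2

variable {B F E : Type*} [CommRing B] [Field F] [Field E] [Algebra B F] [Algebra B E] [Algebra F E]
  [IsScalarTower B F E]

theorem congrChart_isIntegral_coeff_minpoly {c : E} (hc : IsIntegral B c) (i : ℕ) :
    IsIntegral B ((minpoly F c).coeff i) := by
  have hcF : IsIntegral F c := hc.tower_top
  obtain ⟨p, hp, hp0⟩ := hc
  refine Polynomial.isIntegral_coeff_of_dvd p (minpoly F c) hp (minpoly.monic hcF) ?_ i
  apply minpoly.dvd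
  rw [Polynomial.aeval_def, Polynomial.eval₂_map, ← IsScalarTower.algebraMap_eq]
  exact hp0

end CongrChartAux2

variable {A P F E : Type*} [CommRing A] [IsDomain A] [IsDiscreteValuationRing A] [Field P]
  [Field F] [Field E] [Algebra A P] [Algebra P F] [Algebra A F] [IsScalarTower A P F]
  [Algebra F E] [Algebra P E] [Algebra A E] [IsScalarTower P F E] [IsScalarTower A P E]
  [IsScalarTower A F E]
  [FiniteDimensional P F] [FiniteDimensional F E] [FiniteDimensional P E]
  [Algebra.IsSeparable P F] [Algebra.IsSeparable P E] [IsGalois F E]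
  {x : P} {π : A} {Og : Subring P} {vert : Finset (ValuationSubring F)}

theorem exists_congr_chart (hB : Base A F x π Og vert) (hS : Split A E π vert)
    (T : Set (ValuationSubring F)) (hT : T ⊆ ↑vert) {V : ValuationSubring F} (hV : V ∈ vert)
    (hVT : V ∉ T) {W : ValuationSubring E} (hW : W.comap (algebraMap F E) = V)
    {c : E} (hc : c ∈ ChV A E x (up E T)) :
    ∃ f ∈ ChV A F x T, c - algebraMap F E f ∈ W.nonunits := by
  classical
  -- integral elements lie in every vertical valuation subring
  have hG : ∀ W' : ValuationSubring E, W'.comap (algebraMap F E) ∈ vert → ∀ y : E,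
      IsIntegral (Algebra.adjoin A {x}) y → y ∈ W' := fun W' hW' y hy =>
    mem_of_isIntegral₁ hB.coord hB.irr hB.og ((mem_up_vert_iff hB W').1 hW') hy
  have hWv : W.comap (algebraMap F E) ∈ vert := hW ▸ hV
  have hnu : ∀ y : F, y ∈ V.nonunits ↔ algebraMap F E y ∈ W.nonunits := fun y => by
    rw [← hW]; exact mem_nonunits_comap (algebraMap F E) W y
  obtain ⟨hcint, hcT⟩ := hc
  -- STEP 1
  have hcW : c ∈ W := hG W hWv c hcint
  obtain ⟨z, hz⟩ := hS.resdeg W hWv c hcW
  have hzW : algebraMap F E z ∈ W := by
    have : algebraMap F E z = c - (c - algebraMap F E z) := by ring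
    rw [this]
    exact sub_mem hcW (mem_of_mem_nonunits W hz)
  have hzV : z ∈ V := by rw [← hW]; exact hzW
  -- STEP 2
  have hcF : IsIntegral F c := Algebra.IsIntegral.isIntegral c
  have hcoeff : ∀ j, IsIntegral (Algebra.adjoin A {x}) ((minpoly F c).coeff j) :=
    congrChart_isIntegral_coeff_minpoly hcint
  have hev : (minpoly F c).eval z ∈ V.nonunits := by
    rw [hnu]
    have h1 : algebraMap F E ((minpoly F c).eval z)
        = ((minpoly F c).map (algebraMap F E)).eval (algebraMap F E z)
          - ((minpoly F c).map (algebraMap F E)).eval c := by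
      rw [Polynomial.eval_map, Polynomial.eval_map, Polynomial.eval₂_at_apply,
        ← Polynomial.aeval_def, minpoly.aeval, sub_zero]
    rw [h1]
    refine congrChart_eval_sub_eval_mem W _ (fun j => ?_) hzW hcW ?_
    · rw [Polynomial.coeff_map]
      exact hG W hWv _ (hcoeff j).algebraMap
    · have : algebraMap F E z - c = -(c - algebraMap F E z) := by ring
      rw [this]
      exact neg_mem_nonunits W hz
  obtain ⟨f', hf'int, hf'⟩ := hB.nor₁ V hV z hzV (minpoly F c) (minpoly.monic hcF) hcoeff hev
  have hcf' : c - algebraMap F E f' ∈ W.nonunits := by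
    have : c - algebraMap F E f' = (c - algebraMap F E z) + algebraMap F E (z - f') := by
      rw [map_sub]; ring
    rw [this]
    exact add_mem_nonunits W hz ((hnu _).1 hf')
  -- STEP 3
  have hf'E : IsIntegral (Algebra.adjoin A {x}) (algebraMap F E f') := hf'int.algebraMap
  have hγc : ∀ γ : E ≃ₐ[F] E, IsIntegral (Algebra.adjoin A {x}) (γ c) := fun γ => hcint.map γ
  have hnorm : algebraMap F E (Algebra.norm F (algebraMap F E f' - c))
      = ∏ γ : E ≃ₐ[F] E, (algebraMap F E f' - γ c) := by
    rw [Algebra.norm_eq_prod_automorphisms]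
    refine Finset.prod_congr rfl fun γ _ => ?_
    rw [map_sub, AlgEquiv.commutes]
  have hNW : algebraMap F E (Algebra.norm F (algebraMap F E f' - c)) ∈ W.nonunits := by
    rw [hnorm, ← Finset.prod_erase_mul Finset.univ _ (Finset.mem_univ (1 : E ≃ₐ[F] E))]
    refine mul_mem_nonunits W (prod_mem fun γ _ => sub_mem (hG W hWv _ hf'E) (hG W hWv _ (hγc γ))) ?_
    have : algebraMap F E f' - (1 : E ≃ₐ[F] E) c = -(c - algebraMap F E f') := by
      rw [AlgEquiv.one_apply]; ring
    rw [this]
    exact neg_mem_nonunits W hcf'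
  have hNint : IsIntegral (Algebra.adjoin A {x}) (Algebra.norm F (algebraMap F E f' - c)) := by
    rw [← isIntegral_algebraMap_iff (algebraMap F E).injective, hnorm]
    exact IsIntegral.prod _ fun γ _ => hf'E.sub (hγc γ)
  have hr : -(Algebra.norm F (algebraMap F E f' - c) - f' ^ Module.finrank F E) ∈ ChV A F x T := by
    refine (ChV A F x T).neg_mem ⟨hNint.sub (hf'int.pow _), fun V' hV' => ?_⟩
    obtain ⟨W', hW'⟩ := exists_valuationSubring_comap_eq (E := E) V'
    have hW'v : W'.comap (algebraMap F E) ∈ vert := hW' ▸ hT hV'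
    rw [← hW', mem_nonunits_comap, map_sub, map_pow, hnorm, ← IsGalois.card_aut_eq_finrank F E,
      Nat.card_eq_fintype_card, ← Finset.card_univ]
    refine congrChart_prod_sub_pow_mem W' _ _ _ (hG W' hW'v _ hf'E) fun γ _ => ?_
    have h2 : c ∈ (W'.comap (γ : E →+* E)).nonunits := by
      refine hcT _ ?_
      rw [mem_up, ValuationSubring.comap_comap]
      have : ((γ : E →+* E)).comp (algebraMap F E) = algebraMap F E :=
        RingHom.ext fun a => γ.commutes a
      rw [this, hW']
      exact hV'
    exact (mem_nonunits_comap (γ : E →+* E) W' c).1 h2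
  obtain ⟨g, hg, hfg⟩ := hB.rad₁ T hT V hV hVT f' (Module.finrank F E) hf'int ⟨_, hr, by
    rw [hnu]
    have : f' ^ Module.finrank F E
        - -(Algebra.norm F (algebraMap F E f' - c) - f' ^ Module.finrank F E)
        = Algebra.norm F (algebraMap F E f' - c) := by ring
    rw [this]
    exact hNW⟩
  refine ⟨g, hg, ?_⟩
  have : c - algebraMap F E g = (c - algebraMap F E f') + algebraMap F E (f' - g) := by
    rw [map_sub]; ring
  rw [this]
  exact add_mem_nonunits W hcf' ((hnu _).1 hfg)

end Fermat.Agent.Nodal
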