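/-
NODAL core (architect helper155): N3, `H¹(I_T (k)) = 0` for `k ≫ 0`.
See `Fermat/Agent/Nodal/README.md` for the blueprint.
-/
import Fermat.Agent.Nodal.Vert

set_option autoImplicit false

noncomputable section

namespace Fermat.Agent.Nodal

open Fermat.Agent.KLB

variable {A P F : Type*} [CommRing A] [IsDomain A] [IsDiscreteValuationRing A] [Field P] [Field F]
  [Algebra A P] [Algebra P F] [Algebra A F] [IsScalarTower A P F] [FiniteDimensional P F]
  [Algebra.IsSeparable P F]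
  {x : P} (hx : IsCoord A x) {π : A} (hπ : Irreducible π)
  {Og : Subring P} (hOg : IsLocSub (ndvd (hx.prime hπ)) Og)

include hOg

theorem exists_split (T : Set (ValuationSubring F))
    (hT : ∀ V ∈ T, V.toSubring.comap (algebraMap P F) = Og) :
    ∃ k₀ : ℕ, ∀ k, k₀ ≤ k → ∀ e : F, IsIntegral (Algebra.adjoin A {x, x⁻¹}) e →
      (∀ V ∈ T, e ∈ V.nonunits) →
      ∃ g₁ ∈ ChV A F x T, ∃ g₂ ∈ ChV A F x⁻¹ T, e = g₁ + algebraMap P F x ^ k * g₂ := by
  classical
  have hx0 : x ≠ 0 := CechFG.ne_zero hx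
  set X : F := algebraMap P F x with hXdef
  have hX0 : X ≠ 0 := by
    rw [hXdef]; exact (map_ne_zero _).mpr hx0
  have h1le : Algebra.adjoin A {x} ≤ Algebra.adjoin A {x, x⁻¹} :=
    Algebra.adjoin_mono (by intro a ha; left; exact ha)
  have hXi2 : IsIntegral (Algebra.adjoin A {x⁻¹}) X⁻¹ := CechFG.isIntegral_X_inv hx
  have hX1 : IsIntegral (Algebra.adjoin A {x}) X := CechFG.isIntegral_X hx
  have hXV : ∀ V ∈ T, X ∈ V := fun V hV => mem_of_isIntegral₁ hx hπ hOg (hT V hV) hX1
  have hXiV : ∀ V ∈ T, X⁻¹ ∈ V := fun V hV => mem_of_isIntegral₂ hx hπ hOg (hT V hV) hXi2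
  -- finiteness
  have := hx.frac
  have := hx.isIntegrallyClosed
  have := hx.isNoetherianRing
  have hnoeth : IsNoetherian (Algebra.adjoin A {x}) (integralClosure (Algebra.adjoin A {x}) F) :=
    IsIntegralClosure.isNoetherian (Algebra.adjoin A {x}) P F
      (integralClosure (Algebra.adjoin A {x}) F)
  let M1 : Submodule (Algebra.adjoin A {x}) (integralClosure (Algebra.adjoin A {x}) F) :=
    { carrier := {b | ∀ V ∈ T, (b : F) ∈ V.nonunits}
      add_mem' := fun {a b} ha hb V hV => by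
        rw [Subalgebra.coe_add]
        exact add_mem_nonunits V (ha V hV) (hb V hV)
      zero_mem' := fun V _ => by
        rw [ZeroMemClass.coe_zero]
        exact zero_mem_nonunits V
      smul_mem' := fun r b hb V hV => by
        have hrb : ((r • b : integralClosure (Algebra.adjoin A {x}) F) : F) =
            algebraMap P F r * (b : F) := by
          rw [Algebra.smul_def]
          rfl
        rw [hrb]
        refine mul_mem_nonunits V (mem_of_isIntegral₁ hx hπ hOg (hT V hV) ?_) (hb V hV)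
        exact isIntegral_algebraMap (R := Algebra.adjoin A {x}) (x := r) }
  obtain ⟨s, hs⟩ := hnoeth.noetherian M1
  have hsM : ∀ a ∈ s, a ∈ M1 := fun a ha => hs ▸ Submodule.subset_span ha
  set sE : Finset F :=
    s.image (fun a : integralClosure (Algebra.adjoin A {x}) F => (a : F)) with hsE
  have hsE1 : ∀ b ∈ sE, IsIntegral (Algebra.adjoin A {x}) b := by
    intro b hb
    obtain ⟨a, -, rfl⟩ := Finset.mem_image.mp hb
    exact a.2
  have hsEV : ∀ b ∈ sE, ∀ V ∈ T, b ∈ V.nonunits := by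
    intro b hb
    obtain ⟨a, ha, rfl⟩ := Finset.mem_image.mp hb
    exact hsM a ha
  -- uniform exponent for the second chart
  have hk : ∀ b : F, ∃ k : ℕ, b ∈ sE → IsIntegral (Algebra.adjoin A {x⁻¹}) (X⁻¹ ^ k * b) := by
    intro b
    by_cases hb : b ∈ sE
    · obtain ⟨k, hk⟩ := CechFG.exists_inv_pow_mul_isIntegral hx
        (CechFG.isIntegral_mono h1le (hsE1 b hb))
      exact ⟨k, fun _ => hk⟩
    · exact ⟨0, fun h => absurd h hb⟩
  choose κ hκ using hk
  set c : ℕ := sE.sup κ with hc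
  have hbig : ∀ b ∈ sE, ∀ m : ℕ, c ≤ m → IsIntegral (Algebra.adjoin A {x⁻¹}) (X⁻¹ ^ m * b) := by
    intro b hb m hm
    have hkb : κ b ≤ m := le_trans (Finset.le_sup hb) hm
    have : X⁻¹ ^ m * b = X⁻¹ ^ (m - κ b) * (X⁻¹ ^ κ b * b) := by
      rw [← mul_assoc, ← pow_add, Nat.sub_add_cancel hkb]
    rw [this]
    exact (hXi2.pow _).mul (hκ b hb)
  refine ⟨c, fun k hck e he heV => ?_⟩
  -- the set of the elements which split
  let D : F → Prop := fun y => ∃ g₁ ∈ ChV A F x T, ∃ g₂ ∈ ChV A F x⁻¹ T, y = g₁ + X ^ k * g₂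
  have hD0 : D 0 := ⟨0, zero_mem _, 0, zero_mem _, by simp⟩
  have hDadd : ∀ y y', D y → D y' → D (y + y') := by
    rintro y y' ⟨g₁, hg₁, g₂, hg₂, rfl⟩ ⟨g₁', hg₁', g₂', hg₂', rfl⟩
    exact ⟨g₁ + g₁', add_mem hg₁ hg₁', g₂ + g₂', add_mem hg₂ hg₂', by ring⟩
  have hconst₁ : ∀ a : A, IsIntegral (Algebra.adjoin A {x}) (algebraMap A F a) := fun a => by
    rw [IsScalarTower.algebraMap_apply A P F]
    exact isIntegral_algebraMap (R := Algebra.adjoin A {x})
      (x := (algebraMap A (Algebra.adjoin A {x}) a))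
  have hconst₂ : ∀ a : A, IsIntegral (Algebra.adjoin A {x⁻¹}) (algebraMap A F a) := fun a => by
    rw [IsScalarTower.algebraMap_apply A P F]
    exact isIntegral_algebraMap (R := Algebra.adjoin A {x⁻¹})
      (x := (algebraMap A (Algebra.adjoin A {x⁻¹}) a))
  have hDsmul : ∀ (a : A) (y : F), D y → D (algebraMap A F a * y) := by
    rintro a y ⟨g₁, hg₁, g₂, hg₂, rfl⟩
    refine ⟨algebraMap A F a * g₁, ⟨(hconst₁ a).mul hg₁.1, fun V hV => ?_⟩,
      algebraMap A F a * g₂, ⟨(hconst₂ a).mul hg₂.1, fun V hV => ?_⟩, by ring⟩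
    · exact mul_mem_nonunits V (mem_of_isIntegral₁ hx hπ hOg (hT V hV) (hconst₁ a)) (hg₁.2 V hV)
    · exact mul_mem_nonunits V (mem_of_isIntegral₁ hx hπ hOg (hT V hV) (hconst₁ a)) (hg₂.2 V hV)
  -- generators
  have hbase : ∀ b ∈ sE, ∀ j : ℤ, D (X ^ j * b) := by
    intro b hb j
    obtain ⟨n, rfl | rfl⟩ := j.eq_nat_or_neg
    · rw [zpow_natCast]
      refine ⟨X ^ n * b, ⟨(hX1.pow n).mul (hsE1 b hb), fun V hV => ?_⟩, 0, zero_mem _, by simp⟩
      exact mul_mem_nonunits V (V.pow_mem (hXV V hV) n) (hsEV b hb V hV)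
    · rw [zpow_neg, zpow_natCast, ← inv_pow]
      refine ⟨0, zero_mem _, X⁻¹ ^ (k + n) * b,
        ⟨hbig b hb (k + n) (le_trans hck (Nat.le_add_right k n)), fun V hV => ?_⟩, ?_⟩
      · exact mul_mem_nonunits V (V.pow_mem (hXiV V hV) _) (hsEV b hb V hV)
      · rw [zero_add, ← mul_assoc, pow_add, ← mul_assoc, ← mul_pow, mul_inv_cancel₀ hX0, one_pow,
          one_mul]
  -- stability under `A[x]`
  have hmul : ∀ r : P, r ∈ Algebra.adjoin A {x} → ∀ z : F, (∀ j : ℤ, D (X ^ j * z)) →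
      ∀ j : ℤ, D (X ^ j * (algebraMap P F r * z)) := by
    intro r hr
    induction hr using Algebra.adjoin_induction with
    | mem r hr =>
      intro z hz j
      rw [Set.mem_singleton_iff.mp hr, ← mul_assoc, ← hXdef, ← zpow_add_one₀ hX0]
      exact hz _
    | algebraMap a =>
      intro z hz j
      rw [← IsScalarTower.algebraMap_apply, mul_left_comm]
      exact hDsmul a _ (hz j)
    | add r₁ r₂ _ _ h₁ h₂ =>
      intro z hz j
      rw [map_add, add_mul, mul_add]
      exact hDadd _ _ (h₁ z hz j) (h₂ z hz j)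
    | mul r₁ r₂ _ _ h₁ h₂ =>
      intro z hz j
      rw [map_mul, mul_assoc]
      exact h₁ _ (h₂ z hz) j
  have hall : ∀ z ∈ M1, ∀ j : ℤ, D (X ^ j * (z : F)) := by
    intro z hz
    rw [← hs] at hz
    induction hz using Submodule.span_induction with
    | mem a ha => exact hbase _ (Finset.mem_image.mpr ⟨a, ha, rfl⟩)
    | zero =>
      intro j
      rw [ZeroMemClass.coe_zero, mul_zero]
      exact hD0
    | add a b _ _ ha hb =>
      intro j
      rw [Subalgebra.coe_add, mul_add]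
      exact hDadd _ _ (ha j) (hb j)
    | smul r a _ ha =>
      intro j
      have hra : ((r • a : integralClosure (Algebra.adjoin A {x}) F) : F) =
          algebraMap P F r * (a : F) := by
        rw [Algebra.smul_def]
        rfl
      rw [hra]
      exact hmul r r.2 _ ha j
  obtain ⟨n, hn⟩ := CechFG.exists_pow_mul_isIntegral hx he
  have hmem : (⟨X ^ n * e, hn⟩ : integralClosure (Algebra.adjoin A {x}) F) ∈ M1 :=
    fun V hV => mul_mem_nonunits V (V.pow_mem (hXV V hV) n) (heV V hV)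
  have := hall _ hmem (-(n : ℤ))
  rwa [zpow_neg, zpow_natCast, ← mul_assoc, inv_mul_cancel₀ (pow_ne_zero n hX0), one_mul] at this

end Fermat.Agent.Nodal
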