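/-
NODAL core (architect helper155): N4, lifting of sections of a component.
See `Fermat/Agent/Nodal/README.md` for the blueprint.
-/
import Fermat.Agent.Nodal.H1

set_option autoImplicit false

noncomputable section

namespace Fermat.Agent.Nodal

open Fermat.Agent.KLB

variable {A P F : Type*} [CommRing A] [IsDomain A] [IsDiscreteValuationRing A] [Field P] [Field F]
  [Algebra A P] [Algebra P F] [Algebra A F] [IsScalarTower A P F] [FiniteDimensional P F]
  [Algebra.IsSeparable P F]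
  {x : P} (hx : IsCoord A x) {π : A} (hπ : Irreducible π)
  {Og : Subring P} (hOg : IsLocSub (ndvd (hx.prime hπ)) Og)

include hOg

theorem exists_lift (T : Set (ValuationSubring F))
    (hT : ∀ V ∈ T, V.toSubring.comap (algebraMap P F) = Og) (V : ValuationSubring F)
    (hV : V.toSubring.comap (algebraMap P F) = Og) :
    ∃ k₀ : ℕ, ∀ k, k₀ ≤ k → ∀ f₁ ∈ ChV A F x T, ∀ f₂ ∈ ChV A F x⁻¹ T,
      f₁ - algebraMap P F x ^ k * f₂ ∈ V.nonunits →
      ∃ f ∈ SecV A F x T k, f - f₁ ∈ V.nonunits := by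
  have hT' : ∀ V' ∈ insert V T, V'.toSubring.comap (algebraMap P F) = Og := by
    intro V' hV'
    rcases Set.mem_insert_iff.mp hV' with rfl | h
    · exact hV
    · exact hT V' h
  obtain ⟨k₀, hk₀⟩ := exists_split hx hπ hOg (insert V T) hT'
  refine ⟨k₀, fun k hk f₁ hf₁ f₂ hf₂ hV12 => ?_⟩
  have hX0 : algebraMap P F x ≠ 0 := by
    simpa using hx.ne_zero
  have h1le : Algebra.adjoin A {x} ≤ Algebra.adjoin A {x, x⁻¹} :=
    Algebra.adjoin_mono (by simp)
  have h2le : Algebra.adjoin A {x⁻¹} ≤ Algebra.adjoin A {x, x⁻¹} :=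
    Algebra.adjoin_mono (by simp)
  -- `X` is integral over `A[x]`
  have hXint : IsIntegral (Algebra.adjoin A {x}) (algebraMap P F x) :=
    (isIntegral_algebraMap (R := Algebra.adjoin A {x}) (A := F)
      (x := ⟨x, Algebra.self_mem_adjoin_singleton A x⟩))
  have he_int : IsIntegral (Algebra.adjoin A {x, x⁻¹}) (f₁ - algebraMap P F x ^ k * f₂) :=
    (CechFG.isIntegral_mono h1le hf₁.1).sub
      (((CechFG.isIntegral_mono h1le hXint).pow k).mul (CechFG.isIntegral_mono h2le hf₂.1))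
  have he_van : ∀ V' ∈ insert V T, f₁ - algebraMap P F x ^ k * f₂ ∈ V'.nonunits := by
    intro V' hV'
    rcases Set.mem_insert_iff.mp hV' with rfl | h
    · exact hV12
    · exact sub_mem_nonunits V' (hf₁.2 V' h)
        (mul_mem_nonunits V' (mem_of_isIntegral₁ hx hπ hOg (hT V' h) (hXint.pow k)) (hf₂.2 V' h))
  obtain ⟨g₁, hg₁, g₂, hg₂, he⟩ := hk₀ k hk _ he_int he_van
  have hfeq : f₁ - g₁ = algebraMap P F x ^ k * (f₂ + g₂) := by
    have : f₁ = g₁ + algebraMap P F x ^ k * g₂ + algebraMap P F x ^ k * f₂ := by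
      rw [← he]; ring
    rw [this]; ring
  refine ⟨f₁ - g₁, ⟨hf₁.1.sub hg₁.1, ?_, fun W hW => ?_⟩, ?_⟩
  · rw [hfeq, ← mul_assoc, ← mul_pow, inv_mul_cancel₀ hX0, one_pow, one_mul]
    exact hf₂.1.add hg₂.1
  · exact sub_mem_nonunits W (hf₁.2 W hW) (hg₁.2 W (Set.mem_insert_of_mem V hW))
  · have : f₁ - g₁ - f₁ = -g₁ := by ring
    rw [this]
    exact neg_mem_nonunits V (hg₁.2 V (Set.mem_insert V T))

end Fermat.Agent.Nodal
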