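/-
NODAL core (architect helper155): N6, sections of `E` are congruent to sections of `F`.
See `Fermat/Agent/Nodal/README.md` for the blueprint.
-/
import Fermat.Agent.Nodal.CongrChart
import Fermat.Agent.Nodal.Lift

set_option autoImplicit false

noncomputable section

namespace Fermat.Agent.Nodal

open Fermat.Agent.KLB

variable {A P F E : Type*} [CommRing A] [IsDomain A] [IsDiscreteValuationRing A] [Field P]
  [Field F] [Field E] [Algebra A P] [Algebra P F] [Algebra A F] [IsScalarTower A P F]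
  [Algebra F E] [Algebra P E] [Algebra A E] [IsScalarTower P F E] [IsScalarTower A P E]
  [IsScalarTower A F E]
  [FiniteDimensional P F] [FiniteDimensional F E] [FiniteDimensional P E]
  [Algebra.IsSeparable P F] [Algebra.IsSeparable P E] [IsGalois F E]
  {x : P} {π : A} {Og : Subring P} {vert : Finset (ValuationSubring F)}

/-- A uniform bound for a finite family of eventually true statements. -/
theorem congr_exists_uniform {ι : Type*} (s : Finset ι) (Q : ι → ℕ → Prop)
    (h : ∀ i ∈ s, ∃ k₀, ∀ k, k₀ ≤ k → Q i k) : ∃ k₀, ∀ i ∈ s, ∀ k, k₀ ≤ k → Q i k := by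
  classical
  induction s using Finset.induction_on with
  | empty => exact ⟨0, fun i hi => absurd hi (Finset.notMem_empty i)⟩
  | insert a s _ ih =>
    obtain ⟨k₁, h₁⟩ := ih fun i hi => h i (Finset.mem_insert_of_mem hi)
    obtain ⟨k₂, h₂⟩ := h a (Finset.mem_insert_self a s)
    refine ⟨max k₁ k₂, fun i hi k hk => ?_⟩
    rcases Finset.mem_insert.mp hi with rfl | hi
    · exact h₂ k (le_trans (le_max_right _ _) hk)
    · exact h₁ i hi k (le_trans (le_max_left _ _) hk)

omit [IsDomain A] [IsDiscreteValuationRing A] [Algebra A E] [IsScalarTower A P E]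
  [FiniteDimensional P E] [Algebra.IsSeparable P E] in
theorem congr_isIntegral_algebraMap (y : P) : IsIntegral (Algebra.adjoin A {y}) (algebraMap P E y) :=
  isIntegral_algebraMap (R := Algebra.adjoin A {y}) (A := E)
    (x := (⟨y, Algebra.subset_adjoin (Set.mem_singleton y)⟩ : Algebra.adjoin A {y}))

theorem exists_congr (hB : Base A F x π Og vert) (hS : Split A E π vert) :
    ∃ k₀ : ℕ, ∀ k, k₀ ≤ k → ∀ T : Set (ValuationSubring F), T ⊆ ↑vert → ∀ V ∈ vert, V ∉ T →
      ∀ W : ValuationSubring E, W.comap (algebraMap F E) = V →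
      ∀ c ∈ SecV A E x (up E T) k,
        ∃ f ∈ SecV A F x T k, c - algebraMap F E f ∈ W.nonunits := by
  classical
  obtain ⟨k₀, hk₀⟩ := congr_exists_uniform (vert.powerset ×ˢ vert)
    (fun i k => ∀ f₁ ∈ ChV A F x (↑i.1 : Set (ValuationSubring F)),
      ∀ f₂ ∈ ChV A F x⁻¹ (↑i.1 : Set (ValuationSubring F)),
      f₁ - algebraMap P F x ^ k * f₂ ∈ i.2.nonunits →
      ∃ f ∈ SecV A F x (↑i.1 : Set (ValuationSubring F)) k, f - f₁ ∈ i.2.nonunits) (by
    rintro ⟨T', V⟩ hi
    rw [Finset.mem_product, Finset.mem_powerset] at hi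
    exact exists_lift hB.coord hB.irr hB.og (↑T')
      (fun V' hV' => (hB.vert_iff V').1 (hi.1 (Finset.mem_coe.mp hV'))) V ((hB.vert_iff V).1 hi.2))
  refine ⟨k₀, fun k hk T hT V hV hVT W hW c hc => ?_⟩
  have hx0 : algebraMap P E x ≠ 0 := (map_ne_zero _).2 hB.coord.ne_zero
  -- vertical valuation subrings of `E`
  have hvert : ∀ W' : ValuationSubring E, W'.comap (algebraMap F E) ∈ vert →
      W'.toSubring.comap (algebraMap P E) = Og := fun W' h => (mem_up_vert_iff hB W').1 h
  have hWv : W.toSubring.comap (algebraMap P E) = Og := hvert W (hW ▸ hV)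
  have hXW : algebraMap P E x ∈ W :=
    mem_of_isIntegral₁ hB.coord hB.irr hB.og hWv (congr_isIntegral_algebraMap x)
  -- the finite set attached to `T`
  obtain ⟨T', hT', rfl⟩ : ∃ T' : Finset (ValuationSubring F), T' ⊆ vert ∧
      (↑T' : Set (ValuationSubring F)) = T := by
    refine ⟨vert.filter (· ∈ T), Finset.filter_subset _ _, ?_⟩
    ext V'
    simp only [Finset.coe_filter, Set.mem_ofPred_eq]
    exact ⟨fun h => h.2, fun h => ⟨Finset.mem_coe.mp (hT h), h⟩⟩
  -- first chart
  obtain ⟨f₁, hf₁, hcf₁⟩ := exists_congr_chart hB hS (↑T') hT hV hVT hW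
    (c := c) ⟨hc.1, hc.2.2⟩
  -- second chart
  have hc₂ : (algebraMap P E x)⁻¹ ^ k * c ∈ ChV A E x⁻¹ (up E (↑T' : Set (ValuationSubring F))) := by
    refine ⟨hc.2.1, fun W' hW' => mul_mem_nonunits W' (pow_mem ?_ k) (hc.2.2 W' hW')⟩
    have h1 : W'.toSubring.comap (algebraMap P E) = Og := hvert W' (hT hW')
    have h2 := mem_of_isIntegral₂ hB.coord hB.irr hB.og h1 (congr_isIntegral_algebraMap (A := A)
      (E := E) x⁻¹)
    rwa [map_inv₀] at h2
  obtain ⟨f₂, hf₂, hcf₂⟩ := exists_congr_chart hB.inv hS (↑T') hT hV hVT hW hc₂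
  -- glue
  have hglue : f₁ - algebraMap P F x ^ k * f₂ ∈ V.nonunits := by
    rw [← hW, mem_nonunits_comap]
    have e : algebraMap F E (f₁ - algebraMap P F x ^ k * f₂) =
        algebraMap P E x ^ k * ((algebraMap P E x)⁻¹ ^ k * c - algebraMap F E f₂) -
          (c - algebraMap F E f₁) := by
      rw [map_sub, map_mul, map_pow, ← IsScalarTower.algebraMap_apply P F E, mul_sub, ← mul_assoc,
        ← mul_pow, mul_inv_cancel₀ hx0, one_pow, one_mul]
      ring
    rw [e]
    exact sub_mem_nonunits W (mul_mem_nonunits W (pow_mem hXW k) hcf₂) hcf₁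
  obtain ⟨f, hf, hff₁⟩ := hk₀ (T', V) (Finset.mem_product.mpr ⟨Finset.mem_powerset.mpr hT', hV⟩)
    k hk f₁ hf₁ f₂ hf₂ hglue
  refine ⟨f, hf, ?_⟩
  have e : c - algebraMap F E f = (c - algebraMap F E f₁) - algebraMap F E (f - f₁) := by
    rw [map_sub]; ring
  rw [e]
  refine sub_mem_nonunits W hcf₁ ?_
  rw [← mem_nonunits_comap, hW]
  exact hff₁

end Fermat.Agent.Nodal
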