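/-
NODAL core (architect helper155): N7, three lemmas on indices of additive subgroups.
-/
import Mathlib

set_option autoImplicit false

namespace Fermat.Agent.Nodal

variable {G H : Type*} [AddCommGroup G] [AddCommGroup H]

theorem relIndex_eq_of_congr (φ : G →+ H) (K' : AddSubgroup G) (K N : AddSubgroup H)
    (h₁ : ∀ f ∈ K', φ f ∈ K) (h₂ : ∀ c ∈ K, ∃ f ∈ K', c - φ f ∈ N) :
    N.relIndex K = (N.comap φ).relIndex K' := by
  let φ' : K' →+ K := (φ.comp K'.subtype).codRestrict K (fun f => h₁ f f.2)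
  have hcomap : (N.comap φ).addSubgroupOf K' = (N.addSubgroupOf K).comap φ' := by
    ext f
    simp only [AddSubgroup.mem_addSubgroupOf, AddSubgroup.mem_comap]
    rfl
  have htop : φ'.range ⊔ N.addSubgroupOf K = ⊤ := by
    rw [eq_top_iff]
    rintro ⟨c, hc⟩ -
    obtain ⟨f, hf, hfc⟩ := h₂ c hc
    rw [AddSubgroup.mem_sup]
    refine ⟨φ' ⟨f, hf⟩, ⟨⟨f, hf⟩, rfl⟩, ⟨c, hc⟩ - φ' ⟨f, hf⟩, ?_, by abel⟩
    rw [AddSubgroup.mem_addSubgroupOf]
    exact hfc
  calc N.relIndex K = (N.addSubgroupOf K).index := rfl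
    _ = (N.addSubgroupOf K).relIndex ⊤ := (AddSubgroup.relIndex_top_right _).symm
    _ = (N.addSubgroupOf K).relIndex (φ'.range ⊔ N.addSubgroupOf K) := by rw [htop]
    _ = (N.addSubgroupOf K).relIndex φ'.range := AddSubgroup.relIndex_sup_right _ _
    _ = ((N.addSubgroupOf K).comap φ').index := (AddSubgroup.index_comap _ _).symm
    _ = ((N.comap φ).addSubgroupOf K').index := by rw [hcomap]
    _ = (N.comap φ).relIndex K' := rfl

theorem exists_of_relIndex_iInf_eq {ι : Type*} [Fintype ι] (N : ι → AddSubgroup H)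
    (K : AddSubgroup H) (h : (⨅ i, N i).relIndex K = ∏ i, (N i).relIndex K)
    (h0 : (⨅ i, N i).relIndex K ≠ 0) (i : ι) {c : H} (hc : c ∈ K) :
    ∃ c' ∈ K, c' - c ∈ N i ∧ ∀ j, j ≠ i → c' ∈ N j := by
  classical
  let Ψ : K →+ ∀ j, K ⧸ (N j).addSubgroupOf K :=
    AddMonoidHom.pi fun j => QuotientAddGroup.mk' ((N j).addSubgroupOf K)
  have hker : Ψ.ker = (⨅ j, N j).addSubgroupOf K := by
    ext x
    rw [AddMonoidHom.mem_ker, AddSubgroup.mem_addSubgroupOf, AddSubgroup.mem_iInf, funext_iff]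
    refine forall_congr' fun j => ?_
    show QuotientAddGroup.mk' ((N j).addSubgroupOf K) x = 0 ↔ _
    rw [QuotientAddGroup.mk'_apply, QuotientAddGroup.eq_zero_iff, AddSubgroup.mem_addSubgroupOf]
  have hcard : Nat.card Ψ.range = Nat.card (∀ j, K ⧸ (N j).addSubgroupOf K) := by
    rw [← AddSubgroup.index_ker, hker, Nat.card_pi]
    exact h
  have hne : Nat.card (∀ j, K ⧸ (N j).addSubgroupOf K) ≠ 0 := by
    rw [← hcard, ← AddSubgroup.index_ker, hker]
    exact h0
  have hfin : Finite (∀ j, K ⧸ (N j).addSubgroupOf K) := Nat.finite_of_card_ne_zero hne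
  have htop : Ψ.range = ⊤ := AddSubgroup.eq_top_of_card_eq _ hcard
  have hmem : Pi.single i (QuotientAddGroup.mk' ((N i).addSubgroupOf K) ⟨c, hc⟩) ∈ Ψ.range := by
    rw [htop]; exact AddSubgroup.mem_top _
  obtain ⟨⟨c', hc'⟩, hΨ⟩ := hmem
  refine ⟨c', hc', ?_, fun j hj => ?_⟩
  · have h1 := congrFun hΨ i
    rw [Pi.single_eq_same] at h1
    have h2 : QuotientAddGroup.mk' ((N i).addSubgroupOf K) ⟨c', hc'⟩ =
        QuotientAddGroup.mk' ((N i).addSubgroupOf K) ⟨c, hc⟩ := h1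
    rw [QuotientAddGroup.mk'_apply, QuotientAddGroup.mk'_apply, eq_comm, QuotientAddGroup.eq,
      AddSubgroup.mem_addSubgroupOf] at h2
    have h3 : -c + c' ∈ N i := h2
    rwa [neg_add_eq_sub] at h3
  · have h1 := congrFun hΨ j
    rw [Pi.single_eq_of_ne hj] at h1
    have h2 : QuotientAddGroup.mk' ((N j).addSubgroupOf K) ⟨c', hc'⟩ = 0 := h1
    rw [QuotientAddGroup.mk'_apply, QuotientAddGroup.eq_zero_iff,
      AddSubgroup.mem_addSubgroupOf] at h2
    exact h2

end Fermat.Agent.Nodal
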