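/-
NODAL core (architect helper155): N8a, one step of the filtration of the sections of the special fibre.
See `Fermat/Agent/Nodal/README.md` for the blueprint.
-/
import Fermat.Agent.Nodal.Congr
import Fermat.Agent.Nodal.Index

set_option autoImplicit false

noncomputable section

namespace Fermat.Agent.Nodal

open Fermat.Agent.KLB

variable {A P F E : Type*} [CommRing A] [IsDomain A] [IsDiscreteValuationRing A] [Field P]
  [Field F] [Field E] [Algebra A P] [Algebra P F] [Algebra A F] [IsScalarTower A P F]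
  [Algebra F E] [Algebra P E] [Algebra A E] [IsScalarTower P F E] [IsScalarTower A P E]
  [IsScalarTower A F E]
  [FiniteDimensional P F] [FiniteDimensional F E] [FiniteDimensional P E]
  [Algebra.IsSeparable P F] [Algebra.IsSeparable P E] [IsGalois F E]
  {x : P} {π : A} {Og : Subring P} {vert : Finset (ValuationSubring F)}

/-- The maximal ideal of a valuation subring as an additive subgroup. -/
def nonunitsAdd {K : Type*} [Field K] (W : ValuationSubring K) : AddSubgroup K where
  carrier := {y | y ∈ W.nonunits}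
  add_mem' := fun ha hb => add_mem_nonunits W ha hb
  zero_mem' := zero_mem_nonunits W
  neg_mem' := fun ha => neg_mem_nonunits W ha

theorem Step.mem_nonunitsAdd {K : Type*} [Field K] (W : ValuationSubring K) (y : K) :
    y ∈ nonunitsAdd W ↔ y ∈ W.nonunits := Iff.rfl

omit [IsDomain A] [IsDiscreteValuationRing A] [Algebra A F] [IsScalarTower A P F] [Algebra A E]
  [IsScalarTower A P E] [IsScalarTower A F E] [FiniteDimensional P F] [FiniteDimensional F E]
  [FiniteDimensional P E] [Algebra.IsSeparable P F] [Algebra.IsSeparable P E] [IsGalois F E] in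
/-- sections of `F` are sections of `E`. -/
theorem Step.algebraMap_mem_SecV {T : Set (ValuationSubring F)} {k : ℕ} {f : F}
    (hf : f ∈ SecV A F x T k) : algebraMap F E f ∈ SecV A E x (up E T) k := by
  obtain ⟨h1, h2, h3⟩ := hf
  refine ⟨h1.algebraMap, ?_, fun W' hW' => ?_⟩
  · have h4 : (algebraMap P E x)⁻¹ ^ k * algebraMap F E f =
        algebraMap F E ((algebraMap P F x)⁻¹ ^ k * f) := by
      rw [map_mul, map_pow, map_inv₀, ← IsScalarTower.algebraMap_apply P F E]
    rw [h4]
    exact h2.algebraMap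
  · exact (mem_nonunits_comap (algebraMap F E) W' f).mp (h3 _ hW')

omit [IsDomain A] [IsDiscreteValuationRing A] [Algebra A F] [IsScalarTower A P F]
  [FiniteDimensional P F] [Algebra.IsSeparable P F] in
theorem Step.nonunitsAdd_inf_SecV (V : ValuationSubring F) (T : Set (ValuationSubring F)) (k : ℕ) :
    nonunitsAdd V ⊓ SecV A F x T k = SecV A F x (insert V T) k := by
  ext y
  rw [AddSubgroup.mem_inf, Step.mem_nonunitsAdd, mem_SecV, mem_SecV]
  constructor
  · rintro ⟨h0, h1, h2, h3⟩
    refine ⟨h1, h2, fun W hW => ?_⟩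
    rcases hW with rfl | hW
    · exact h0
    · exact h3 W hW
  · rintro ⟨h1, h2, h3⟩
    exact ⟨h3 V (Set.mem_insert V T), h1, h2, fun W hW => h3 W (Set.mem_insert_of_mem V hW)⟩

/-- for `k ≥ k₀` (the `k₀` of `exists_congr`): index of `{c ∈ Sec_E(T) | c ∈ 𝔪_W}` -/
theorem relIndex_nonunitsAdd (hB : Base A F x π Og vert) (hS : Split A E π vert) :
    ∃ k₀ : ℕ, ∀ k, k₀ ≤ k → ∀ T : Set (ValuationSubring F), T ⊆ ↑vert → ∀ V ∈ vert, V ∉ T →
      ∀ W : ValuationSubring E, W.comap (algebraMap F E) = V →
      (nonunitsAdd W).relIndex (SecV A E x (up E T) k) =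
        (SecV A F x (insert V T) k).relIndex (SecV A F x T k) := by
  obtain ⟨k₀, hk₀⟩ := exists_congr (E := E) hB hS
  refine ⟨k₀, fun k hk T hT V hV hVT W hW => ?_⟩
  have h := relIndex_eq_of_congr (algebraMap F E).toAddMonoidHom (SecV A F x T k)
    (SecV A E x (up E T) k) (nonunitsAdd W) (fun f hf => Step.algebraMap_mem_SecV hf)
    (hk₀ k hk T hT V hV hVT W hW)
  have hcomap : (nonunitsAdd W).comap (algebraMap F E).toAddMonoidHom = nonunitsAdd V := by
    ext y
    rw [AddSubgroup.mem_comap, Step.mem_nonunitsAdd, Step.mem_nonunitsAdd, ← hW,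
      mem_nonunits_comap]
    rfl
  rw [h, hcomap, ← Step.nonunitsAdd_inf_SecV, AddSubgroup.inf_relIndex_right]

theorem relIndex_step_le (hB : Base A F x π Og vert) (hS : Split A E π vert) :
    ∃ k₀ : ℕ, ∀ k, k₀ ≤ k → ∀ T : Set (ValuationSubring F), T ⊆ ↑vert → ∀ V ∈ vert, V ∉ T →
      (SecV A E x (up E (insert V T)) k).relIndex (SecV A E x (up E T) k) ≤
        ((SecV A F x (insert V T) k).relIndex (SecV A F x T k)) ^ Module.finrank F E := by
  obtain ⟨k₀, hk₀⟩ := relIndex_nonunitsAdd (E := E) hB hS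
  refine ⟨k₀, fun k hk T hT V hV hVT => ?_⟩
  obtain ⟨hfin, hne, hcard⟩ := finite_fibre hS hV
  have : Fintype {W : ValuationSubring E // W.comap (algebraMap F E) = V} := Fintype.ofFinite _
  set J := (SecV A F x (insert V T) k).relIndex (SecV A F x T k) with hJ
  have hinf : (⨅ W : {W : ValuationSubring E // W.comap (algebraMap F E) = V}, nonunitsAdd W.1) ⊓
      SecV A E x (up E T) k = SecV A E x (up E (insert V T)) k := by
    ext y
    rw [AddSubgroup.mem_inf, AddSubgroup.mem_iInf, mem_SecV, mem_SecV]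
    constructor
    · rintro ⟨h0, h1, h2, h3⟩
      refine ⟨h1, h2, fun W hW => ?_⟩
      rcases (mem_up.mp hW) with hW | hW
      · exact h0 ⟨W, hW⟩
      · exact h3 W hW
    · rintro ⟨h1, h2, h3⟩
      exact ⟨fun W => h3 W.1 (mem_up.mpr (by rw [W.2]; exact Set.mem_insert V T)), h1, h2,
        fun W hW => h3 W (mem_up.mpr (Set.mem_insert_of_mem V hW))⟩
  have h1 : (SecV A E x (up E (insert V T)) k).relIndex (SecV A E x (up E T) k) ≤
      J ^ Nat.card {W : ValuationSubring E // W.comap (algebraMap F E) = V} := by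
    rw [← hinf, AddSubgroup.inf_relIndex_right]
    refine (AddSubgroup.relIndex_iInf_le _).trans (le_of_eq ?_)
    rw [Finset.prod_congr rfl fun W _ => hk₀ k hk T hT V hV hVT W.1 W.2, Finset.prod_const,
      Finset.card_univ, Nat.card_eq_fintype_card]
  refine h1.trans ?_
  rcases Nat.eq_zero_or_pos J with h0 | h0
  · rw [h0, zero_pow (Nat.card_pos.ne')]
    exact Nat.zero_le _
  · exact Nat.pow_le_pow_right h0 hcard

end Fermat.Agent.Nodal
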