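/-
NODAL core (architect helper155): N8b, the count.  Proofs: helper256.
See `Fermat/Agent/Nodal/README.md` for the blueprint.
-/
import Fermat.Agent.Nodal.Step

set_option autoImplicit false

noncomputable section

namespace Fermat.Agent.Nodal

open Fermat.Agent.KLB

section CountAux

variable {F : Type*} (E : Type*) [Field F] [Field E] [Algebra F E]

theorem count_up_mono {T T' : Set (ValuationSubring F)} (h : T ⊆ T') : up E T ⊆ up E T' :=
  fun _ hW => h hW

theorem count_up_empty : up E (∅ : Set (ValuationSubring F)) = ∅ := rfl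

variable {E}

/-- the conjugates of an extension of `V` are extensions of `V`. -/
theorem count_comap_comap (W : ValuationSubring E) (γ : E ≃ₐ[F] E) :
    (W.comap (γ : E →+* E)).comap (algebraMap F E) = W.comap (algebraMap F E) := by
  ext z
  simp [ValuationSubring.mem_comap]

/-- pure arithmetic behind the count. -/
theorem count_arith {I Pi J aV bV a0 b0 d m : ℕ} (h1 : aV * I = a0) (h2 : bV * J = b0)
    (h3 : b0 ≠ 0) (h4 : b0 ^ d ≤ a0) (h5 : aV ≤ bV ^ d) (h6 : I ≤ Pi) (h7 : Pi = J ^ m)
    (h8 : m ≤ d) : I = Pi ∧ I ≠ 0 := by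
  have hJ : J ≠ 0 := by rintro rfl; exact h3 (by rw [← h2, mul_zero])
  have hbV : bV ≠ 0 := by rintro rfl; exact h3 (by rw [← h2, zero_mul])
  have hPi0 : Pi ≠ 0 := by rw [h7]; exact pow_ne_zero _ hJ
  have hPiJ : Pi ≤ J ^ d := by
    rw [h7]; exact Nat.pow_le_pow_right (Nat.pos_of_ne_zero hJ) h8
  have hpos : 0 < bV ^ d := Nat.pos_of_ne_zero (pow_ne_zero _ hbV)
  have hI : I = Pi := by
    by_contra hne
    have hlt : I < Pi := lt_of_le_of_ne h6 hne
    have c1 : a0 ≤ bV ^ d * I := by rw [← h1]; exact Nat.mul_le_mul_right I h5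
    have c2 : bV ^ d * I < bV ^ d * Pi := Nat.mul_lt_mul_of_pos_left hlt hpos
    have c3 : bV ^ d * Pi ≤ bV ^ d * J ^ d := Nat.mul_le_mul_left _ hPiJ
    have c4 : bV ^ d * J ^ d = b0 ^ d := by rw [← mul_pow, h2]
    omega
  exact ⟨hI, hI ▸ hPi0⟩

end CountAux

variable {A P F E : Type*} [CommRing A] [IsDomain A] [IsDiscreteValuationRing A] [Field P]
  [Field F] [Field E] [Algebra A P] [Algebra P F] [Algebra A F] [IsScalarTower A P F]
  [Algebra F E] [Algebra P E] [Algebra A E] [IsScalarTower P F E] [IsScalarTower A P E]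
  [IsScalarTower A F E]
  [FiniteDimensional P F] [FiniteDimensional F E] [FiniteDimensional P E]
  [Algebra.IsSeparable P F] [Algebra.IsSeparable P E] [IsGalois F E]
  {x : P} {π : A} {Og : Subring P} {vert : Finset (ValuationSubring F)}

/-- the upper bound for the number of sections of the special fibre of the cover. -/
theorem relIndex_le_pow (hB : Base A F x π Og vert) (hS : Split A E π vert) :
    ∃ k₀ : ℕ, ∀ k, k₀ ≤ k → ∀ T : Set (ValuationSubring F), T ⊆ ↑vert →
      (SecV A E x (up E (↑vert : Set (ValuationSubring F))) k).relIndex (SecV A E x (up E T) k) ≤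
        ((SecV A F x ↑vert k).relIndex (SecV A F x T k)) ^ Module.finrank F E := by
  classical
  obtain ⟨k₀, hk₀⟩ := relIndex_step_le hB hS
  refine ⟨k₀, fun k hk => ?_⟩
  have key : ∀ n : ℕ, ∀ T : Set (ValuationSubring F), T ⊆ ↑vert →
      (vert.filter (· ∉ T)).card = n →
      (SecV A E x (up E (↑vert : Set (ValuationSubring F))) k).relIndex (SecV A E x (up E T) k) ≤
        ((SecV A F x ↑vert k).relIndex (SecV A F x T k)) ^ Module.finrank F E := by
    intro n
    induction n with
    | zero =>
      intro T hT hcard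
      have hTeq : T = ↑vert := by
        apply Set.Subset.antisymm hT
        intro V hV
        by_contra hVT
        have hmem : V ∈ vert.filter (· ∉ T) := Finset.mem_filter.mpr ⟨hV, hVT⟩
        rw [Finset.card_eq_zero.mp hcard] at hmem
        exact absurd hmem (Finset.notMem_empty _)
      rw [hTeq, AddSubgroup.relIndex_self, AddSubgroup.relIndex_self, one_pow]
    | succ n ih =>
      intro T hT hcard
      obtain ⟨V, hV⟩ : (vert.filter (· ∉ T)).Nonempty := by
        rw [← Finset.card_pos, hcard]; exact Nat.succ_pos n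
      obtain ⟨hVv, hVT⟩ := Finset.mem_filter.mp hV
      have hins : insert V T ⊆ (↑vert : Set (ValuationSubring F)) := Set.insert_subset hVv hT
      have hcard' : (vert.filter (· ∉ insert V T)).card = n := by
        have hfe : vert.filter (· ∉ insert V T) = (vert.filter (· ∉ T)).erase V := by
          ext U
          simp only [Finset.mem_filter, Finset.mem_erase, Set.mem_insert_iff, not_or]
          tauto
        rw [hfe, Finset.card_erase_of_mem hV, hcard]
        rfl
      have ih' := ih (insert V T) hins (by convert hcard')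
      have hstep := hk₀ k hk T hT V hVv hVT
      have e1 := AddSubgroup.relIndex_mul_relIndex
        (SecV A E x (up E (↑vert : Set (ValuationSubring F))) k)
        (SecV A E x (up E (insert V T)) k) (SecV A E x (up E T) k)
        (SecV_anti (count_up_mono E hins) k)
        (SecV_anti (count_up_mono E (Set.subset_insert V T)) k)
      have e2 := AddSubgroup.relIndex_mul_relIndex (SecV A F x ↑vert k)
        (SecV A F x (insert V T) k) (SecV A F x T k) (SecV_anti hins k)
        (SecV_anti (Set.subset_insert V T) k)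
      rw [← e1, ← e2, mul_pow]
      exact Nat.mul_le_mul ih' hstep
  intro T hT
  exact key _ T hT rfl

/-- the sections of the cover surject onto the product of the sections of the components
over `V`. -/
theorem exists_sec (hB : Base A F x π Og vert) (hS : Split A E π vert)
    (hC : Count A F E x vert) :
    ∀ k₁ : ℕ, ∃ k, k₁ ≤ k ∧ ∀ V ∈ vert, ∀ W₁ : ValuationSubring E,
      W₁.comap (algebraMap F E) = V → ∀ c ∈ SecV A E x ∅ k, ∃ c' ∈ SecV A E x ∅ k,
        c' - c ∈ W₁.nonunits ∧
        ∀ W : ValuationSubring E, W.comap (algebraMap F E) = V → W ≠ W₁ → c' ∈ W.nonunits := by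
  classical
  intro k₁
  obtain ⟨k₀, hk₀⟩ := relIndex_le_pow (E := E) hB hS
  obtain ⟨k₀', hk₀'⟩ := relIndex_nonunitsAdd (E := E) hB hS
  obtain ⟨k, hk, hb0, hcount⟩ := hC (max k₁ (max k₀ k₀'))
  have hk1 : k₁ ≤ k := le_trans (le_max_left _ _) hk
  have hk2 : k₀ ≤ k := le_trans (le_trans (le_max_left _ _) (le_max_right _ _)) hk
  have hk3 : k₀' ≤ k := le_trans (le_trans (le_max_right _ _) (le_max_right _ _)) hk
  refine ⟨k, hk1, ?_⟩
  intro V hV W₁ hW₁ c hc
  -- the fibre over `V`
  let ι : Type _ := {W : ValuationSubring E // W.comap (algebraMap F E) = V}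
  let φ : (E ≃ₐ[F] E) → ι := fun γ =>
    ⟨W₁.comap (γ : E →+* E), by rw [count_comap_comap, hW₁]⟩
  have hφ : Function.Surjective φ := by
    rintro ⟨W, hW⟩
    obtain ⟨γ, hγ⟩ := hS.trans W₁ W (by rw [hW₁]; exact hV) (by rw [hW₁, hW])
    exact ⟨γ, Subtype.ext hγ.symm⟩
  have hfin : Finite ι := Finite.of_surjective φ hφ
  let _ : Fintype ι := Fintype.ofFinite ι
  have hcardι : Fintype.card ι ≤ Module.finrank F E := by
    rw [← IsGalois.card_aut_eq_finrank F E, ← Nat.card_eq_fintype_card]
    exact Nat.card_le_card_of_surjective φ hφ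
  let N : ι → AddSubgroup E := fun W => nonunitsAdd W.1
  have hsub : ({V} : Set (ValuationSubring F)) ⊆ ↑vert := by
    intro U hU
    rw [Set.mem_singleton_iff] at hU
    rw [hU]; exact hV
  have hins : (insert V (∅ : Set (ValuationSubring F))) = {V} := by simp
  -- `X_V = (⨅ N) ⊓ X_∅`
  have hXV : SecV A E x (up E ({V} : Set (ValuationSubring F))) k = (⨅ i, N i) ⊓ SecV A E x ∅ k := by
    ext y
    rw [AddSubgroup.mem_inf, AddSubgroup.mem_iInf, mem_SecV, mem_SecV]
    constructor
    · rintro ⟨h1, h2, h3⟩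
      exact ⟨fun i => h3 i.1 (by rw [mem_up, i.2]; rfl), h1, h2, fun W hW => absurd hW (by simp)⟩
    · rintro ⟨h0, h1, h2, -⟩
      exact ⟨h1, h2, fun W hW => h0 ⟨W, hW⟩⟩
  have hI : (SecV A E x (up E ({V} : Set (ValuationSubring F))) k).relIndex (SecV A E x ∅ k) =
      (⨅ i, N i).relIndex (SecV A E x ∅ k) := by
    rw [hXV, AddSubgroup.inf_relIndex_right]
  have hJ : ∀ i : ι, (N i).relIndex (SecV A E x ∅ k) =
      (SecV A F x {V} k).relIndex (SecV A F x ∅ k) := by
    intro i
    have := hk₀' k hk3 ∅ (Set.empty_subset _) V hV (Set.notMem_empty V) i.1 i.2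
    rwa [count_up_empty, hins] at this
  have hPi : ∏ i, (N i).relIndex (SecV A E x ∅ k) =
      ((SecV A F x {V} k).relIndex (SecV A F x ∅ k)) ^ Fintype.card ι := by
    rw [Finset.prod_congr rfl (fun i _ => hJ i), Finset.prod_const, Finset.card_univ]
  have e1 := AddSubgroup.relIndex_mul_relIndex
    (SecV A E x (up E (↑vert : Set (ValuationSubring F))) k)
    (SecV A E x (up E ({V} : Set (ValuationSubring F))) k) (SecV A E x ∅ k)
    (SecV_anti (count_up_mono E hsub) k) (SecV_anti (Set.empty_subset _) k)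
  have e2 := AddSubgroup.relIndex_mul_relIndex (SecV A F x ↑vert k)
    (SecV A F x {V} k) (SecV A F x ∅ k) (SecV_anti hsub k) (SecV_anti (Set.empty_subset _) k)
  rw [hI] at e1
  obtain ⟨hEq, hne⟩ := count_arith e1 e2 hb0 hcount (hk₀ k hk2 {V} hsub)
    (AddSubgroup.relIndex_iInf_le N) hPi hcardι
  obtain ⟨c', hc', h1, h2⟩ := exists_of_relIndex_iInf_eq N (SecV A E x ∅ k) hEq hne ⟨W₁, hW₁⟩ hc
  refine ⟨c', hc', h1, fun W hW hne' => h2 ⟨W, hW⟩ ?_⟩
  intro h
  exact hne' (congrArg Subtype.val h)

end Fermat.Agent.Nodal
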