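/-
NODAL core (architect helper155): N9, (LC') distinct components over the same `V` are disjoint.
See `Fermat/Agent/Nodal/README.md` for the blueprint.
-/
import Fermat.Agent.Nodal.Count

set_option autoImplicit false

noncomputable section

namespace Fermat.Agent.Nodal

open Fermat.Agent.KLB

variable {A P F E : Type*} [CommRing A] [IsDomain A] [IsDiscreteValuationRing A] [Field P]
  [Field F] [Field E] [Algebra A P] [Algebra P F] [Algebra A F] [IsScalarTower A P F]
  [Algebra F E] [Algebra P E] [Algebra A E] [IsScalarTower P F E] [IsScalarTower A P E]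
  [IsScalarTower A F E]
  [FiniteDimensional P F] [FiniteDimensional F E] [FiniteDimensional P E]
  [Algebra.IsSeparable P F] [Algebra.IsSeparable P E] [IsGalois F E]
  {x : P} {π : A} {Og : Subring P} {vert : Finset (ValuationSubring F)}

/-- apply `exists_sec` to `c = 1`. -/
theorem lc₁ (hB : Base A F x π Og vert) (hS : Split A E π vert) (hC : Count A F E x vert) :
    LC A E x vert := by
  obtain ⟨k, -, hk⟩ := exists_sec hB hS hC 0
  intro V hV W₁ hW₁
  have h1 : (1 : E) ∈ SecV A E x ∅ k :=
    ⟨isIntegral_one, by rw [mul_one]; exact (CechFG.isIntegral_X_inv hB.coord).pow k,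
      fun W hW => absurd hW (Set.notMem_empty W)⟩
  obtain ⟨c', hc', h2, h3⟩ := hk V hV W₁ hW₁ 1 h1
  exact ⟨c', hc'.1, h2, h3⟩

/-- apply `exists_sec` to `c = x ^ k` and divide by `x ^ k`. -/
theorem lc₂ (hB : Base A F x π Og vert) (hS : Split A E π vert) (hC : Count A F E x vert) :
    LC A E x⁻¹ vert := by
  obtain ⟨k, -, hk⟩ := exists_sec hB hS hC 0
  intro V hV W₁ hW₁
  have hX0 : algebraMap P E x ≠ 0 := by
    rw [Ne, map_eq_zero]
    exact hB.coord.ne_zero
  have h1 : (algebraMap P E x) ^ k ∈ SecV A E x ∅ k :=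
    ⟨(CechFG.isIntegral_X hB.coord).pow k, by
      rw [← mul_pow, inv_mul_cancel₀ hX0, one_pow]
      exact isIntegral_one, fun W hW => absurd hW (Set.notMem_empty W)⟩
  obtain ⟨c', hc', h2, h3⟩ := hk V hV W₁ hW₁ _ h1
  -- `x⁻¹` lies in every valuation subring over `V`
  have hmem : ∀ W : ValuationSubring E, W.comap (algebraMap F E) = V →
      (algebraMap P E x)⁻¹ ^ k ∈ W := by
    intro W hW
    have hWv : W.toSubring.comap (algebraMap P E) = Og :=
      (mem_up_vert_iff hB W).mp (mem_up.mpr (by rw [hW]; exact hV))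
    exact pow_mem (mem_of_isIntegral₂ hB.coord hB.irr hB.og hWv
      (CechFG.isIntegral_X_inv hB.coord)) k
  refine ⟨(algebraMap P E x)⁻¹ ^ k * c', hc'.2.1, ?_, fun W hW hne => ?_⟩
  · have e : (algebraMap P E x)⁻¹ ^ k * c' - 1 =
        (algebraMap P E x)⁻¹ ^ k * (c' - (algebraMap P E x) ^ k) := by
      rw [mul_sub, ← mul_pow, inv_mul_cancel₀ hX0, one_pow]
    rw [e]
    exact mul_mem_nonunits W₁ (hmem W₁ hW₁) h2
  · exact mul_mem_nonunits W (hmem W hW) (h3 W hW hne)

end Fermat.Agent.Nodal
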