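/-
NODAL core (architect helper155): N12b, an automorphism fixing all components commutes with the Galois group; Kummer theory.
See `Fermat/Agent/Nodal/README.md` for the blueprint.
-/
import Fermat.Agent.Nodal.Defs

set_option autoImplicit false
set_option linter.unusedSectionVars false

noncomputable section

namespace Fermat.Agent.Nodal

open Fermat.Agent.KLB

variable {A P F E : Type*} [CommRing A] [IsDomain A] [IsDiscreteValuationRing A] [Field P]
  [Field F] [Field E] [Algebra A P] [Algebra P F] [Algebra A F] [IsScalarTower A P F]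
  [Algebra F E] [Algebra P E] [Algebra A E] [IsScalarTower P F E] [IsScalarTower A P E]
  [IsScalarTower A F E]
  [FiniteDimensional P F] [FiniteDimensional F E] [FiniteDimensional P E]
  [Algebra.IsSeparable P F] [Algebra.IsSeparable P E] [IsGalois F E]
  {x : P} {π : A} {Og : Subring P} {vert : Finset (ValuationSubring F)}

theorem commute_of_fixes_all (hS : Split A E π vert) (g : E ≃+* E) (g₀ : F ≃+* F)
    (hg : ∀ f : F, g (algebraMap F E f) = algebraMap F E (g₀ f))
    (W₀ : ValuationSubring E) (hW₀ : W₀.comap (algebraMap F E) ∈ vert)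
    (hall : ∀ W : ValuationSubring E, W.comap (algebraMap F E) ∈ vert →
      W.comap (g : E →+* E) = W) (γ : E ≃ₐ[F] E) (y : E) : g (γ y) = γ (g y) := by
  have hsymm : ∀ f : F, g.symm (algebraMap F E f) = algebraMap F E (g₀.symm f) := by
    intro f
    rw [RingEquiv.symm_apply_eq, hg, RingEquiv.apply_symm_apply]
  -- the conjugate of `γ` by `g`
  let γ' : E ≃ₐ[F] E := AlgEquiv.ofRingEquiv (f := (g.symm.trans γ.toRingEquiv).trans g) (by
    intro f
    show g (γ (g.symm (algebraMap F E f))) = algebraMap F E f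
    rw [hsymm, AlgEquiv.commutes, hg, RingEquiv.apply_symm_apply])
  have hγ' : ∀ z : E, γ' z = g (γ (g.symm z)) := fun _ => rfl
  set W₁ : ValuationSubring E := W₀.comap (γ : E →+* E) with hW₁
  have hmem₁ : ∀ z : E, z ∈ W₁ ↔ γ z ∈ W₀ := fun _ => Iff.rfl
  have hW₁v : W₁.comap (algebraMap F E) ∈ vert := by
    have : W₁.comap (algebraMap F E) = W₀.comap (algebraMap F E) := by
      ext f
      show γ (algebraMap F E f) ∈ W₀ ↔ algebraMap F E f ∈ W₀
      rw [AlgEquiv.commutes]
    rw [this]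
    exact hW₀
  have hg₁ : ∀ z : E, g z ∈ W₁ ↔ z ∈ W₁ := by
    intro z
    have h1 := hall W₁ hW₁v
    exact (SetLike.ext_iff.mp h1 z)
  have hg₀' : ∀ z : E, g z ∈ W₀ ↔ z ∈ W₀ := by
    intro z
    have h1 := hall W₀ hW₀
    exact (SetLike.ext_iff.mp h1 z)
  have hkey : ∀ z : E, γ' z ∈ W₀ ↔ γ z ∈ W₀ := by
    intro z
    rw [hγ', hg₀', ← hmem₁, ← hg₁, RingEquiv.apply_symm_apply, hmem₁]
  let δ : E ≃ₐ[F] E := γ.symm.trans γ'
  have hδ : W₀.comap (δ : E →+* E) = W₀ := by
    ext z
    show γ' (γ.symm z) ∈ W₀ ↔ z ∈ W₀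
    rw [hkey, AlgEquiv.apply_symm_apply]
  have hδ1 : δ = 1 := hS.free W₀ hW₀ δ hδ
  have h2 : γ' (γ.symm (γ (g y))) = γ (g y) := by
    have := AlgEquiv.congr_fun hδ1 (γ (g y))
    exact this
  rw [AlgEquiv.symm_apply_apply, hγ', RingEquiv.symm_apply_apply] at h2
  exact h2

omit [IsDomain A] [IsDiscreteValuationRing A] [CommRing A] [Algebra A P] [Algebra A F]
  [IsScalarTower A P F] [Algebra A E] [IsScalarTower A P E] [IsScalarTower A F E] [Field P]
  [Algebra P F] [Algebra P E] [IsScalarTower P F E] [FiniteDimensional P F]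
  [FiniteDimensional P E] [Algebra.IsSeparable P F] [Algebra.IsSeparable P E] in
/-- Kummer theory: `g` acts on Kummer classes through the cyclotomic character. -/
theorem kummer_of_commute (g : E ≃+* E) (g₀ : F ≃+* F)
    (hg : ∀ f : F, g (algebraMap F E f) = algebraMap F E (g₀ f))
    (hcomm : ∀ (γ : E ≃ₐ[F] E) (y : E), g (γ y) = γ (g y))
    (n ε : ℕ) (hε : ∀ ζ : E, ζ ^ n = 1 → g ζ = ζ ^ ε)
    (y : E) (u : F) (hu : u ≠ 0) (hy : y ^ n = algebraMap F E u) :
    ∃ f : F, g₀ u = u ^ ε * f ^ n := by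
  have hinj : Function.Injective (algebraMap F E) := (algebraMap F E).injective
  rcases Nat.eq_zero_or_pos n with rfl | hn
  · refine ⟨1, ?_⟩
    rw [pow_zero] at hy
    have hu1 : u = 1 := hinj (by rw [← hy, map_one])
    rw [hu1, map_one, one_pow, one_pow, one_mul]
  have hιu : algebraMap F E u ≠ 0 := by
    rw [Ne, map_eq_zero]
    exact hu
  have hy0 : y ≠ 0 := by
    rintro rfl
    rw [zero_pow hn.ne'] at hy
    exact hιu hy.symm
  have hfix : ∀ γ : E ≃ₐ[F] E, γ (g y / y ^ ε) = g y / y ^ ε := by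
    intro γ
    have hζ : (γ y / y) ^ n = 1 := by
      rw [div_pow, ← map_pow, hy, AlgEquiv.commutes, div_self hιu]
    have hγy : γ y = (γ y / y) * y := by
      field_simp
    have h1 : γ (g y) = (γ y / y) ^ ε * g y := by
      rw [← hcomm, ← hε _ hζ, ← map_mul, ← hγy]
    have h2 : γ (y ^ ε) = (γ y / y) ^ ε * y ^ ε := by
      rw [map_pow, ← mul_pow, ← hγy]
    have hζ0 : (γ y / y) ^ ε ≠ 0 := by
      apply pow_ne_zero
      intro h0
      rw [h0, zero_pow hn.ne'] at hζ
      exact zero_ne_one hζ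
    rw [map_div₀, h1, h2, mul_div_mul_left _ _ hζ0]
  have hbot : g y / y ^ ε ∈ (⊥ : IntermediateField F E) :=
    (IsGalois.mem_bot_iff_fixed _).mpr hfix
  obtain ⟨f, hf⟩ := IntermediateField.mem_bot.mp hbot
  refine ⟨f, hinj ?_⟩
  have hgy : g y = algebraMap F E f * y ^ ε := by
    rw [hf]
    field_simp
  rw [← hg, ← hy, map_pow, hgy, mul_pow, ← pow_mul, mul_comm ε n, pow_mul, hy, map_mul, map_pow,
    map_pow, mul_comm]

end Fermat.Agent.Nodal
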