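/-
NODAL core (architect helper155): N2, the `q`-expansion principle for several vertical valuations.
See `Fermat/Agent/Nodal/README.md` for the blueprint.
-/
import Fermat.Agent.Nodal.Vert

set_option autoImplicit false

noncomputable section

namespace Fermat.Agent.Nodal

open Fermat.Agent.KLB

variable {A P E : Type*} [CommRing A] [IsDomain A] [IsDiscreteValuationRing A] [Field P] [Field E]
  [Algebra A P] [Algebra P E] [Algebra A E] [IsScalarTower A P E] [FiniteDimensional P E]
  {x : P} (hx : IsCoord A x) {π : A} (hπ : Irreducible π)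
  {Og : Subring P} (hOg : IsLocSub (ndvd (hx.prime hπ)) Og)
  (hunif : ∀ W : ValuationSubring E, W.toSubring.comap (algebraMap P E) = Og →
    ∀ y ∈ W.nonunits, (algebraMap A E π)⁻¹ * y ∈ W)

omit [FiniteDimensional P E] in
include hx hπ in
theorem Qep.unif_ne_zero : algebraMap A E π ≠ 0 := by
  have := hx.frac
  intro h
  have h' : algebraMap (Algebra.adjoin A {x}) P (algebraMap A _ π) = 0 := by
    have h2 : algebraMap P E (algebraMap A P π) = 0 := by
      rw [← IsScalarTower.algebraMap_apply]; exact h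
    rw [← IsScalarTower.algebraMap_apply]
    exact (map_eq_zero _).mp h2
  exact (hx.prime hπ).ne_zero ((map_eq_zero_iff _ (IsFractionRing.injective _ P)).mp h')

include hOg hunif

theorem Qep.isIntegral_Og {y : E}
    (hv : ∀ W : ValuationSubring E, W.toSubring.comap (algebraMap P E) = Og → y ∈ W.nonunits) :
    IsIntegral Og ((algebraMap A E π)⁻¹ * y) :=
  isIntegral_Og_of_forall_mem hx hπ hOg fun W hW => hunif W hW y (hv W hW)

/-- from N1 and `KLB.sat`. -/
theorem qep₁ {y : E} (hy : IsIntegral (Algebra.adjoin A {x}) y)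
    (hv : ∀ W : ValuationSubring E, W.toSubring.comap (algebraMap P E) = Og → y ∈ W.nonunits) :
    IsIntegral (Algebra.adjoin A {x}) ((algebraMap A E π)⁻¹ * y) := by
  have := hx.frac
  have := hx.isIntegrallyClosed
  have a1 : algebraMap (Algebra.adjoin A {x}) E (algebraMap A _ π) = algebraMap A E π :=
    (IsScalarTower.algebraMap_apply A (Algebra.adjoin A {x}) E π).symm
  refine sat (S := Algebra.adjoin A {x}) (L := P) (hx.prime hπ) hOg
    (Qep.isIntegral_Og hx hπ hOg hunif hv) ?_
  rw [a1, mul_inv_cancel_left₀ (Qep.unif_ne_zero hx hπ)]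
  exact hy

theorem qep₂ {y : E} (hy : IsIntegral (Algebra.adjoin A {x⁻¹}) y)
    (hv : ∀ W : ValuationSubring E, W.toSubring.comap (algebraMap P E) = Og → y ∈ W.nonunits) :
    IsIntegral (Algebra.adjoin A {x⁻¹}) ((algebraMap A E π)⁻¹ * y) := by
  have := hx.inv.frac
  have := hx.inv.isIntegrallyClosed
  have a1 : algebraMap (Algebra.adjoin A {x⁻¹}) E (algebraMap A _ π) = algebraMap A E π :=
    (IsScalarTower.algebraMap_apply A (Algebra.adjoin A {x⁻¹}) E π).symm
  refine sat (S := Algebra.adjoin A {x⁻¹}) (L := P) (hx.inv.prime hπ) (hx.isLocSub_inv hπ hOg)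
    (Qep.isIntegral_Og hx hπ hOg hunif hv) ?_
  rw [a1, mul_inv_cancel_left₀ (Qep.unif_ne_zero hx hπ)]
  exact hy

theorem qep₁₂ {y : E} (hy : IsIntegral (Algebra.adjoin A {x, x⁻¹}) y)
    (hv : ∀ W : ValuationSubring E, W.toSubring.comap (algebraMap P E) = Og → y ∈ W.nonunits) :
    IsIntegral (Algebra.adjoin A {x, x⁻¹}) ((algebraMap A E π)⁻¹ * y) := by
  have := hx.frac₂
  have := hx.isIntegrallyClosed₂
  have a1 : algebraMap (Algebra.adjoin A {x, x⁻¹}) E (algebraMap A _ π) = algebraMap A E π :=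
    (IsScalarTower.algebraMap_apply A (Algebra.adjoin A {x, x⁻¹}) E π).symm
  refine sat (S := Algebra.adjoin A {x, x⁻¹}) (L := P) (hx.prime₂ hπ) (hx.isLocSub₂ hπ hOg)
    (Qep.isIntegral_Og hx hπ hOg hunif hv) ?_
  rw [a1, mul_inv_cancel_left₀ (Qep.unif_ne_zero hx hπ)]
  exact hy

end Fermat.Agent.Nodal
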