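/-
NODAL core (architect helper155): N10, the dual graph of the special fibre of `E` is connected.
See `Fermat/Agent/Nodal/README.md` for the blueprint.
-/
import Fermat.Agent.Nodal.Basic
import Fermat.Agent.Nodal.Qep

set_option autoImplicit false

noncomputable section

namespace Fermat.Agent.Nodal

open Fermat.Agent.KLB

section Aux

variable {E : Type*} [Field E]

theorem connected_one_notMem_nonunits (W : ValuationSubring E) : (1 : E) ∉ W.nonunits := by
  rw [ValuationSubring.mem_nonunits_iff, map_one]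
  exact lt_irrefl _

theorem connected_prod_mem_nonunits (W : ValuationSubring E) {ι : Type*} (s : Finset ι)
    (f : ι → E) (h : ∀ i ∈ s, f i ∈ W) {i₀ : ι} (hi₀ : i₀ ∈ s) (h₀ : f i₀ ∈ W.nonunits) :
    ∏ i ∈ s, f i ∈ W.nonunits := by
  classical
  rw [← Finset.mul_prod_erase s f hi₀, mul_comm]
  exact mul_mem_nonunits W (prod_mem (fun i hi => h i (Finset.mem_of_mem_erase hi))) h₀

theorem connected_prod_sub_one_mem_nonunits (W : ValuationSubring E) {ι : Type*} (s : Finset ι)
    (f : ι → E) (h : ∀ i ∈ s, f i - 1 ∈ W.nonunits) : ∏ i ∈ s, f i - 1 ∈ W.nonunits := by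
  classical
  induction s using Finset.induction_on with
  | empty =>
    rw [Finset.prod_empty, sub_self]
    exact zero_mem_nonunits W
  | insert a s ha ih =>
    rw [Finset.prod_insert ha]
    have h1 : f a - 1 ∈ W.nonunits := h a (Finset.mem_insert_self a s)
    have h2 : ∏ i ∈ s, f i - 1 ∈ W.nonunits := ih (fun i hi => h i (Finset.mem_insert_of_mem hi))
    have h3 : f a ∈ W := by
      have := add_mem (mem_of_mem_nonunits W h1) W.one_mem
      simpa using this
    have h4 : f a * ∏ i ∈ s, f i - 1 = f a * (∏ i ∈ s, f i - 1) + (f a - 1) := by ring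
    rw [h4]
    exact add_mem_nonunits W (mul_mem_nonunits W h3 h2) h1

/-- separating idempotent modulo the vertical primes, in one chart. -/
theorem connected_idem (R : Subring E) (S1 S2 : Finset (ValuationSubring E))
    (hR1 : ∀ W ∈ S1, ∀ y ∈ R, y ∈ W) (hR2 : ∀ W ∈ S2, ∀ y ∈ R, y ∈ W)
    (hc : ∀ W ∈ S1, ∀ W' ∈ S2, ∃ c ∈ R, c ∈ W.nonunits ∧ c - 1 ∈ W'.nonunits) :
    ∃ e ∈ R, (∀ W ∈ S1, e ∈ W.nonunits) ∧ (∀ W' ∈ S2, e - 1 ∈ W'.nonunits) := by
  classical
  have hc' : ∀ W W' : ValuationSubring E, ∃ c : E, W ∈ S1 → W' ∈ S2 →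
      (c ∈ R ∧ c ∈ W.nonunits ∧ c - 1 ∈ W'.nonunits) := by
    intro W W'
    by_cases h1 : W ∈ S1
    · by_cases h2 : W' ∈ S2
      · obtain ⟨c, hc1, hc2⟩ := hc W h1 W' h2
        exact ⟨c, fun _ _ => ⟨hc1, hc2⟩⟩
      · exact ⟨0, fun _ h => absurd h h2⟩
    · exact ⟨0, fun h _ => absurd h h1⟩
  choose c hc using hc'
  set a : ValuationSubring E → E := fun W' => ∏ W ∈ S1, c W W' with ha
  have haR : ∀ W' ∈ S2, a W' ∈ R := fun W' hW' => prod_mem (fun W hW => (hc W W' hW hW').1)
  have ha1 : ∀ W' ∈ S2, ∀ W ∈ S1, a W' ∈ W.nonunits := by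
    intro W' hW' W hW
    exact connected_prod_mem_nonunits W S1 (fun V => c V W')
      (fun V hV => hR1 W hW _ (hc V W' hV hW').1) hW (hc W W' hW hW').2.1
  have ha2 : ∀ W' ∈ S2, a W' - 1 ∈ W'.nonunits := by
    intro W' hW'
    exact connected_prod_sub_one_mem_nonunits W' S1 (fun V => c V W')
      (fun V hV => (hc V W' hV hW').2.2)
  refine ⟨1 - ∏ W' ∈ S2, (1 - a W'), ?_, ?_, ?_⟩
  · exact R.sub_mem R.one_mem (prod_mem (fun W' hW' => R.sub_mem R.one_mem (haR W' hW')))
  · intro W hW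
    have h := connected_prod_sub_one_mem_nonunits W S2 (fun W' => 1 - a W') (fun W' hW' => by
      have : (1 - a W') - 1 = -(a W') := by ring
      rw [this]
      exact neg_mem_nonunits W (ha1 W' hW' W hW))
    have h' : 1 - ∏ W' ∈ S2, (1 - a W') = -(∏ W' ∈ S2, (1 - a W') - 1) := by ring
    rw [h']
    exact neg_mem_nonunits W h
  · intro W' hW'
    have h := connected_prod_mem_nonunits W' S2 (fun V' => 1 - a V')
      (fun V' hV' => hR2 W' hW' _ (R.sub_mem R.one_mem (haR V' hV'))) hW' (by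
        have : 1 - a W' = -(a W' - 1) := by ring
        rw [this]
        exact neg_mem_nonunits W' (ha2 W' hW'))
    have h' : 1 - ∏ V' ∈ S2, (1 - a V') - 1 = -(∏ V' ∈ S2, (1 - a V')) := by ring
    rw [h']
    exact neg_mem_nonunits W' h

end Aux

variable {A P F E : Type*} [CommRing A] [IsDomain A] [IsDiscreteValuationRing A] [Field P]
  [Field F] [Field E] [Algebra A P] [Algebra P F] [Algebra A F] [IsScalarTower A P F]
  [Algebra F E] [Algebra P E] [Algebra A E] [IsScalarTower P F E] [IsScalarTower A P E]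
  [IsScalarTower A F E]
  [FiniteDimensional P F] [FiniteDimensional F E] [FiniteDimensional P E]
  [Algebra.IsSeparable P F] [Algebra.IsSeparable P E] [IsGalois F E]
  {x : P} {π : A} {Og : Subring P} {vert : Finset (ValuationSubring F)}

theorem connected (hB : Base A F x π Og vert) (hS : Split A E π vert)
    (hconst : ∀ y : E, IsIntegral A y → y ∈ (algebraMap A E).range)
    (S : Set (ValuationSubring E))
    (h₁ : ∀ W ∈ up E (↑vert : Set (ValuationSubring F)), W ∈ S →
      ∀ W' ∈ up E (↑vert : Set (ValuationSubring F)), W' ∉ S →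
      ∃ c : E, IsIntegral (Algebra.adjoin A {x}) c ∧ c ∈ W.nonunits ∧ c - 1 ∈ W'.nonunits)
    (h₂ : ∀ W ∈ up E (↑vert : Set (ValuationSubring F)), W ∈ S →
      ∀ W' ∈ up E (↑vert : Set (ValuationSubring F)), W' ∉ S →
      ∃ c : E, IsIntegral (Algebra.adjoin A {x⁻¹}) c ∧ c ∈ W.nonunits ∧ c - 1 ∈ W'.nonunits)
    (hne : ∃ W ∈ up E (↑vert : Set (ValuationSubring F)), W ∈ S) :
    ∀ W ∈ up E (↑vert : Set (ValuationSubring F)), W ∈ S := by
  classical
  by_contra hcon
  push Not at hcon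
  obtain ⟨W'₀, hW'₀, hW'₀S⟩ := hcon
  obtain ⟨W₀, hW₀, hW₀S⟩ := hne
  have hx := hB.coord
  have hπ := hB.irr
  have hOg := hB.og
  have hfin := finite_up_vert (E := E) hS
  set U : Finset (ValuationSubring E) := hfin.toFinset with hU
  have hUmem : ∀ W, W ∈ U ↔ W ∈ up E (↑vert : Set (ValuationSubring F)) :=
    fun W => Set.Finite.mem_toFinset hfin
  set S1 : Finset (ValuationSubring E) := U.filter (fun W => W ∈ S) with hS1
  set S2 : Finset (ValuationSubring E) := U.filter (fun W => W ∉ S) with hS2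
  have hS1mem : ∀ W, W ∈ S1 ↔ W ∈ up E (↑vert : Set (ValuationSubring F)) ∧ W ∈ S := by
    intro W; rw [hS1, Finset.mem_filter, hUmem]
  have hS2mem : ∀ W, W ∈ S2 ↔ W ∈ up E (↑vert : Set (ValuationSubring F)) ∧ W ∉ S := by
    intro W; rw [hS2, Finset.mem_filter, hUmem]
  have hvert : ∀ W, W ∈ up E (↑vert : Set (ValuationSubring F)) →
      W.toSubring.comap (algebraMap P E) = Og := fun W hW => (mem_up_vert_iff hB W).mp hW
  have hvert' : ∀ W : ValuationSubring E, W.toSubring.comap (algebraMap P E) = Og →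
      W ∈ S1 ∨ W ∈ S2 := by
    intro W hW
    have h := (mem_up_vert_iff hB W).mpr hW
    by_cases hWS : W ∈ S
    · exact Or.inl ((hS1mem W).mpr ⟨h, hWS⟩)
    · exact Or.inr ((hS2mem W).mpr ⟨h, hWS⟩)
  have hunif : ∀ W : ValuationSubring E, W.toSubring.comap (algebraMap P E) = Og →
      ∀ y ∈ W.nonunits, (algebraMap A E π)⁻¹ * y ∈ W :=
    fun W hW => hS.unif W ((mem_up_vert_iff hB W).mpr hW)
  -- the two approximate idempotents
  obtain ⟨e₁, he₁, he₁1, he₁2⟩ := connected_idem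
    (integralClosure (Algebra.adjoin A {x}) E).toSubring S1 S2
    (fun W hW y hy => mem_of_isIntegral₁ hx hπ hOg (hvert W ((hS1mem W).mp hW).1) hy)
    (fun W hW y hy => mem_of_isIntegral₁ hx hπ hOg (hvert W ((hS2mem W).mp hW).1) hy)
    (fun W hW W' hW' => h₁ W ((hS1mem W).mp hW).1 ((hS1mem W).mp hW).2 W' ((hS2mem W').mp hW').1
      ((hS2mem W').mp hW').2)
  obtain ⟨e₂, he₂, he₂1, he₂2⟩ := connected_idem
    (integralClosure (Algebra.adjoin A {x⁻¹}) E).toSubring S1 S2
    (fun W hW y hy => mem_of_isIntegral₂ hx hπ hOg (hvert W ((hS1mem W).mp hW).1) hy)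
    (fun W hW y hy => mem_of_isIntegral₂ hx hπ hOg (hvert W ((hS2mem W).mp hW).1) hy)
    (fun W hW W' hW' => h₂ W ((hS1mem W).mp hW).1 ((hS1mem W).mp hW).2 W' ((hS2mem W').mp hW').1
      ((hS2mem W').mp hW').2)
  have := hx.frac
  have := hx.inv.frac
  have he₁' : IsIntegral (Algebra.adjoin A {x}) e₁ := he₁
  have he₂' : IsIntegral (Algebra.adjoin A {x⁻¹}) e₂ := he₂
  have mono₁ : ∀ y : E, IsIntegral (Algebra.adjoin A {x}) y →
      IsIntegral (Algebra.adjoin A {x, x⁻¹}) y := fun y hy =>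
    hx.isLocSub_powers.isIntegral_of hy
  have mono₂ : ∀ y : E, IsIntegral (Algebra.adjoin A {x⁻¹}) y →
      IsIntegral (Algebra.adjoin A {x, x⁻¹}) y := fun y hy => by
    have := hx.inv.isLocSub_powers.isIntegral_of hy
    rw [inv_inv, Set.pair_comm] at this
    exact this
  -- `π ≠ 0` in `E`
  set p : E := algebraMap A E π with hp
  have hp0 : p ≠ 0 := by
    intro h
    have h' : algebraMap (Algebra.adjoin A {x}) P (algebraMap A _ π) = 0 := by
      have h2 : algebraMap P E (algebraMap A P π) = 0 := by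
        rw [← IsScalarTower.algebraMap_apply]; exact h
      rw [← IsScalarTower.algebraMap_apply]
      exact (map_eq_zero _).mp h2
    exact (hx.prime hπ).ne_zero ((map_eq_zero_iff _ (IsFractionRing.injective _ P)).mp h')
  -- congruences at all vertical valuations
  have hidem : ∀ (e : E), (∀ W ∈ S1, e ∈ W.nonunits) → (∀ W' ∈ S2, e - 1 ∈ W'.nonunits) →
      ∀ W : ValuationSubring E, W.toSubring.comap (algebraMap P E) = Og →
        e ^ 2 - e ∈ W.nonunits := by
    intro e h1 h2 W hW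
    rcases hvert' W hW with h | h
    · have h3 := h1 W h
      have h4 : e - 1 ∈ W := sub_mem (mem_of_mem_nonunits W h3) W.one_mem
      have : e ^ 2 - e = (e - 1) * e := by ring
      rw [this]
      exact mul_mem_nonunits W h4 h3
    · have h3 := h2 W h
      have h4 : e ∈ W := by
        have := add_mem (mem_of_mem_nonunits W h3) W.one_mem
        simpa using this
      have : e ^ 2 - e = e * (e - 1) := by ring
      rw [this]
      exact mul_mem_nonunits W h4 h3
  have hdiff : ∀ W : ValuationSubring E, W.toSubring.comap (algebraMap P E) = Og →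
      e₁ - e₂ ∈ W.nonunits := by
    intro W hW
    rcases hvert' W hW with h | h
    · exact sub_mem_nonunits W (he₁1 W h) (he₂1 W h)
    · have : e₁ - e₂ = (e₁ - 1) - (e₂ - 1) := by ring
      rw [this]
      exact sub_mem_nonunits W (he₁2 W h) (he₂2 W h)
  have q1 := qep₁ hx hπ hOg hunif ((he₁'.pow 2).sub he₁') (hidem e₁ he₁1 he₁2)
  have q2 := qep₂ hx hπ hOg hunif ((he₂'.pow 2).sub he₂') (hidem e₂ he₂1 he₂2)
  have q12 := qep₁₂ hx hπ hOg hunif ((mono₁ _ he₁').sub (mono₂ _ he₂')) hdiff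
  have hmul : ∀ y : E, y = p * (p⁻¹ * y) := fun y => by
    rw [← mul_assoc, mul_inv_cancel₀ hp0, one_mul]
  rcases cech hx hπ hconst he₁' he₂' ⟨_, q1, hmul _⟩ ⟨_, q2, hmul _⟩ ⟨_, q12, hmul _⟩ with
    ⟨r, hr, hre⟩ | ⟨r, hr, hre⟩
  · -- `e₁ ≡ 0` everywhere: contradiction at `W'₀`
    have hW := hvert W'₀ hW'₀
    have h1 : e₁ ∈ W'₀.nonunits := by
      rw [hre, mul_comm]
      exact mul_mem_nonunits W'₀ (mem_of_isIntegral₁ hx hπ hOg hW hr)
        (unif_mem_nonunits hx hπ hOg hW)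
    have h2 := he₁2 W'₀ ((hS2mem W'₀).mpr ⟨hW'₀, hW'₀S⟩)
    have h3 := sub_mem_nonunits W'₀ h1 h2
    rw [sub_sub_cancel] at h3
    exact connected_one_notMem_nonunits W'₀ h3
  · -- `e₁ ≡ 1` everywhere: contradiction at `W₀`
    have hW := hvert W₀ hW₀
    have h1 : 1 - e₁ ∈ W₀.nonunits := by
      rw [hre, mul_comm]
      exact mul_mem_nonunits W₀ (mem_of_isIntegral₁ hx hπ hOg hW hr)
        (unif_mem_nonunits hx hπ hOg hW)
    have h2 := he₁1 W₀ ((hS1mem W₀).mpr ⟨hW₀, hW₀S⟩)
    have h3 := add_mem_nonunits W₀ h1 h2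
    rw [sub_add_cancel] at h3
    exact connected_one_notMem_nonunits W₀ h3

end Fermat.Agent.Nodal
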