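/-
NODAL core (architect helper155): N13a, the module of sections is free of finite rank.
See `Fermat/Agent/Nodal/README.md` for the blueprint.
-/
import Fermat.Agent.Nodal.Defs

set_option autoImplicit false

noncomputable section

namespace Fermat.Agent.Nodal

open Fermat.Agent.KLB

section RankFinitePoly

open Polynomial

variable {A L : Type*} [CommRing A] [IsDomain A] [IsDiscreteValuationRing A] [Field L]
  [Algebra A L] {x : L} (hx : IsCoord A x)

include hx

/-- An element of `A[x]` with a pole of order at most `N` at infinity is a polynomial of degree at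
most `N`. -/
theorem rankFinite_mem_span (N : ℕ) {t : L} (h₁ : t ∈ Algebra.adjoin A {x})
    (h₂ : x⁻¹ ^ N * t ∈ Algebra.adjoin A {x⁻¹}) :
    t ∈ Submodule.span A (Set.range fun j : Fin (N + 1) => x ^ (j : ℕ)) := by
  obtain ⟨p, rfl⟩ := Algebra.adjoin_mem_exists_aeval _ _ h₁
  obtain ⟨q, hq⟩ := Algebra.adjoin_mem_exists_aeval _ _ h₂
  set n := q.natDegree with hn
  have hx0 := hx.ne_zero
  have h1 := aeval_inv_reflect (A := A) (inv_ne_zero hx0) n q le_rfl
  rw [inv_inv, hq] at h1
  have h2 : aeval x (X ^ n * p) = aeval x (X ^ N * reflect n q) := by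
    simp only [map_mul, map_pow, aeval_X]
    have e1 : x ^ N * aeval x (reflect n q) =
        x ^ N * ((aeval x (reflect n q) * x⁻¹ ^ n) * x ^ n) := by
      rw [mul_assoc (aeval x (reflect n q)), ← mul_pow, inv_mul_cancel₀ hx0, one_pow, mul_one]
    rw [e1, h1, ← mul_assoc, ← mul_assoc, ← mul_pow, mul_inv_cancel₀ hx0, one_pow, one_mul,
      mul_comm]
  have h3 : X ^ n * p = X ^ N * reflect n q := aeval_injective_of_transcendental hx.trans h2
  rcases eq_or_ne p 0 with rfl | hp
  · simp
  have h4 : (X ^ n * p).natDegree = n + p.natDegree := by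
    rw [natDegree_mul (pow_ne_zero _ X_ne_zero) hp, natDegree_X_pow]
  have h5 : (reflect n q).natDegree ≤ n := by
    rw [natDegree_le_iff_coeff_eq_zero]
    intro i hi
    rw [coeff_reflect, revAt_eq_self_of_lt hi]
    exact coeff_eq_zero_of_natDegree_lt hi
  have h6 : (X ^ N * reflect n q).natDegree ≤ N + n := by
    refine natDegree_mul_le.trans ?_
    rw [natDegree_X_pow]
    omega
  rw [← h3, h4] at h6
  have h7 : p.natDegree < N + 1 := by omega
  rw [aeval_eq_sum_range' h7]
  exact Submodule.sum_mem _ fun i hi =>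
    Submodule.smul_mem _ _ (Submodule.subset_span ⟨⟨i, Finset.mem_range.mp hi⟩, rfl⟩)

omit [IsDomain A] [IsDiscreteValuationRing A] in
theorem rankFinite_algebraMap_injective : Function.Injective (algebraMap A L) := by
  rw [injective_iff_map_eq_zero]
  intro b hb
  by_contra hb0
  exact hx.trans ⟨Polynomial.C b, by simpa using hb0, by simpa using hb⟩

end RankFinitePoly

variable {A P E : Type*} [CommRing A] [IsDomain A] [IsDiscreteValuationRing A] [Field P] [Field E]
  [Algebra A P] [Algebra P E] [Algebra A E] [IsScalarTower A P E] [FiniteDimensional P E]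
  [Algebra.IsSeparable P E] {x : P} (hx : IsCoord A x)

include hx

/-- `y ↦ (Tr (y b_i))_i` embeds `Sec k` in a finite sum of modules of polynomials of bounded
degree. -/
theorem finite_Sec (k : ℕ) : Module.Finite A (Sec A E x k) := by
  classical
  have := hx.frac
  have := hx.isIntegrallyClosed
  have hfrac' := hx.inv.frac
  have hic' := hx.inv.isIntegrallyClosed
  set X : E := algebraMap P E x with hX
  obtain ⟨s, b, hb⟩ := FiniteDimensional.exists_is_basis_integral (Algebra.adjoin A {x}) P E
  have h1le : Algebra.adjoin A {x} ≤ Algebra.adjoin A {x, x⁻¹} :=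
    Algebra.adjoin_mono (by intro a ha; left; exact ha)
  choose m hm using fun i : s =>
    CechFG.exists_inv_pow_mul_isIntegral hx (CechFG.isIntegral_mono h1le (hb i))
  set c := Finset.univ.sup m with hc
  have hXi2 : IsIntegral (Algebra.adjoin A {x⁻¹}) X⁻¹ := CechFG.isIntegral_X_inv hx
  have hcb : ∀ i, IsIntegral (Algebra.adjoin A {x⁻¹}) (X⁻¹ ^ c * b i) := by
    intro i
    have hle : m i ≤ c := Finset.le_sup (Finset.mem_univ i)
    have e : X⁻¹ ^ c * b i = X⁻¹ ^ (c - m i) * (X⁻¹ ^ m i * b i) := by
      rw [← mul_assoc, ← pow_add, Nat.sub_add_cancel hle]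
    rw [e]
    exact (hXi2.pow _).mul (hm i)
  let M : Submodule A P := Submodule.span A (Set.range fun j : Fin (k + c + 1) => x ^ (j : ℕ))
  have hM : Module.Finite A M := Module.Finite.span_of_finite A (Set.finite_range _)
  let φ : s → E →ₗ[A] P := fun i =>
    ((Algebra.trace P E).restrictScalars A).comp (LinearMap.mulRight A (b i))
  have hφ_apply : ∀ i y, φ i y = Algebra.trace P E (y * b i) := fun _ _ => rfl
  have hφ : ∀ i, ∀ y ∈ Sec A E x k, φ i y ∈ M := by
    intro i y hy
    rw [hφ_apply]
    apply rankFinite_mem_span hx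
    · have h1 : IsIntegral (Algebra.adjoin A {x}) (Algebra.trace P E (y * b i)) :=
        Algebra.isIntegral_trace (hy.1.mul (hb i))
      obtain ⟨z, hz⟩ := IsIntegrallyClosed.isIntegral_iff.mp h1
      exact hz ▸ z.2
    · have h2 : x⁻¹ ^ (k + c) * Algebra.trace P E (y * b i) =
          Algebra.trace P E ((X⁻¹ ^ k * y) * (X⁻¹ ^ c * b i)) := by
        rw [← smul_eq_mul, ← map_smul, Algebra.smul_def, map_pow, map_inv₀]
        congr 1
        rw [pow_add]
        ring
      rw [h2]
      have h3 : IsIntegral (Algebra.adjoin A {x⁻¹})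
          (Algebra.trace P E ((X⁻¹ ^ k * y) * (X⁻¹ ^ c * b i))) :=
        Algebra.isIntegral_trace (hy.2.mul (hcb i))
      obtain ⟨z, hz⟩ := IsIntegrallyClosed.isIntegral_iff.mp h3
      exact hz ▸ z.2
  let Φ : Sec A E x k →ₗ[A] (s → M) := LinearMap.pi fun i =>
    ((φ i).comp (Sec A E x k).subtype).codRestrict M (fun y => hφ i y y.2)
  have hinj : Function.Injective Φ := by
    rw [injective_iff_map_eq_zero]
    intro y hy
    have h0 : ∀ i, Algebra.trace P E ((y : E) * b i) = 0 := fun i =>
      congrArg Subtype.val (congrFun hy i)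
    have h1 : Algebra.traceForm P E (y : E) = 0 := b.ext fun i => h0 i
    have h2 : (y : E) = 0 :=
      (traceForm_nondegenerate P E).1 (y : E) fun n => by rw [h1]; rfl
    exact Subtype.ext h2
  exact Module.Finite.of_injective Φ hinj

theorem free_Sec (k : ℕ) : Module.Free A (Sec A E x k) := by
  have := finite_Sec (E := E) hx k
  have hinj : Function.Injective (algebraMap A E) := by
    rw [IsScalarTower.algebraMap_eq A P E]
    exact (algebraMap P E).injective.comp (rankFinite_algebraMap_injective hx)
  have : Module.IsTorsionFree A E := Module.isTorsionFree_iff_algebraMap_injective.mpr hinj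
  exact Module.free_of_finite_type_torsion_free'

end Fermat.Agent.Nodal
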