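/-
NODAL core (architect helper155): N13b, the number of sections of the special fibre.
See `Fermat/Agent/Nodal/README.md` for the blueprint.
-/
import Fermat.Agent.Nodal.RankFinite
import Fermat.Agent.Nodal.Qep

set_option autoImplicit false

noncomputable section

namespace Fermat.Agent.Nodal

open Fermat.Agent.KLB

variable {A P E : Type*} [CommRing A] [IsDomain A] [IsDiscreteValuationRing A] [Field P] [Field E]
  [Algebra A P] [Algebra P E] [Algebra A E] [IsScalarTower A P E] [FiniteDimensional P E]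
  [Algebra.IsSeparable P E]
  {x : P} (hx : IsCoord A x) {π : A} (hπ : Irreducible π)
  {Og : Subring P} (hOg : IsLocSub (ndvd (hx.prime hπ)) Og)
  (hunif : ∀ W : ValuationSubring E, W.toSubring.comap (algebraMap P E) = Og →
    ∀ y ∈ W.nonunits, (algebraMap A E π)⁻¹ * y ∈ W)

omit [IsDiscreteValuationRing A] [FiniteDimensional P E] [Algebra.IsSeparable P E] in
theorem RankIndex_algebraMap_ne_zero (hx : IsCoord A x) {a : A} (ha : a ≠ 0) :
    algebraMap A E a ≠ 0 := by
  intro h0
  rw [IsScalarTower.algebraMap_apply A P E, map_eq_zero] at h0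
  apply ha
  have h1 : Polynomial.aeval x (Polynomial.C a) = Polynomial.aeval x (0 : Polynomial A) := by
    rw [Polynomial.aeval_C, h0, map_zero]
  exact Polynomial.C_eq_zero.mp (aeval_injective_of_transcendental hx.trans h1)

include hOg hunif

/-- the sections vanishing on the whole special fibre are the multiples of `π`. -/
theorem RankIndex_mem_SecV_iff (k : ℕ) (y : E) :
    y ∈ SecV A E x {W | W.toSubring.comap (algebraMap P E) = Og} k ↔
      ∃ z ∈ Sec A E x k, y = π • z := by
  have hπ0 : algebraMap A E π ≠ 0 := RankIndex_algebraMap_ne_zero hx hπ.ne_zero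
  constructor
  · rintro ⟨h1, h2, h3⟩
    refine ⟨(algebraMap A E π)⁻¹ * y, ⟨qep₁ hx hπ hOg hunif h1 h3, ?_⟩, ?_⟩
    · have h4 := qep₂ hx hπ hOg hunif h2 (fun W hW => ?_)
      · rwa [mul_left_comm] at h4
      · refine mul_mem_nonunits W ?_ (h3 W hW)
        refine pow_mem ?_ k
        refine mem_of_isIntegral₂ hx hπ hOg hW ?_
        rw [← map_inv₀]
        have h5 : IsIntegral (Algebra.adjoin A {x⁻¹})
            (algebraMap (Algebra.adjoin A {x⁻¹}) E
              ⟨x⁻¹, Algebra.self_mem_adjoin_singleton A x⁻¹⟩) := isIntegral_algebraMap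
        exact h5
    · rw [Algebra.smul_def, mul_inv_cancel_left₀ hπ0]
  · rintro ⟨z, hz, rfl⟩
    have h1 := (Sec A E x k).smul_mem π hz
    refine ⟨h1.1, h1.2, fun W hW => ?_⟩
    rw [Algebra.smul_def, mul_comm]
    exact mul_mem_nonunits W (mem_of_isIntegral₁ hx hπ hOg hW hz.1)
      (unif_mem_nonunits hx hπ hOg hW)

/-- by N2 the sections vanishing on the whole special fibre are `π · Sec k`. -/
theorem relIndex_SecV_eq (k : ℕ) :
    (SecV A E x {W | W.toSubring.comap (algebraMap P E) = Og} k).relIndex (SecV A E x ∅ k) =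
      Nat.card (A ⧸ Ideal.span {π}) ^ Module.finrank A (Sec A E x k) := by
  classical
  haveI := finite_Sec (E := E) hx k
  haveI := free_Sec (E := E) hx k
  let b := Module.finBasis A (Sec A E x k)
  let ψ : (Fin (Module.finrank A (Sec A E x k)) → A) →ₗ[A] E :=
    (Sec A E x k).subtype.comp b.equivFun.symm.toLinearMap
  have hψ : Function.Injective ψ :=
    (Sec A E x k).injective_subtype.comp b.equivFun.symm.injective
  have hψr : ∀ y : E, y ∈ Sec A E x k ↔ ∃ c, ψ c = y := by
    intro y
    constructor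
    · intro hy
      exact ⟨b.equivFun ⟨y, hy⟩, by simp [ψ]⟩
    · rintro ⟨c, rfl⟩
      exact (b.equivFun.symm c).2
  have h1 : SecV A E x ∅ k = AddSubgroup.map ψ.toAddMonoidHom ⊤ := by
    ext y
    rw [AddSubgroup.mem_map]
    constructor
    · rintro ⟨h1, h2, -⟩
      obtain ⟨c, hc⟩ := (hψr y).mp ⟨h1, h2⟩
      exact ⟨c, AddSubgroup.mem_top _, hc⟩
    · rintro ⟨c, -, hc⟩
      have := (hψr y).mpr ⟨c, hc⟩
      exact ⟨this.1, this.2, fun W hW => absurd hW (Set.notMem_empty W)⟩
  have h2 : SecV A E x {W | W.toSubring.comap (algebraMap P E) = Og} k =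
      AddSubgroup.map ψ.toAddMonoidHom
        (AddSubgroup.pi Set.univ fun _ => (Ideal.span {π}).toAddSubgroup) := by
    ext y
    rw [RankIndex_mem_SecV_iff hx hπ hOg hunif, AddSubgroup.mem_map]
    constructor
    · rintro ⟨z, hz, rfl⟩
      obtain ⟨c, rfl⟩ := (hψr z).mp hz
      refine ⟨π • c, ?_, map_smul ψ π c⟩
      intro i _
      exact Ideal.mem_span_singleton.mpr ⟨c i, by simp⟩
    · rintro ⟨c, hc, rfl⟩
      have hc' : ∀ i, ∃ d : A, c i = π * d := fun i =>
        Ideal.mem_span_singleton.mp (hc i (Set.mem_univ i))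
      choose d hd using hc'
      refine ⟨ψ d, (hψr _).mpr ⟨d, rfl⟩, ?_⟩
      have : c = π • d := by
        funext i
        simp [hd i]
      rw [this]
      exact map_smul ψ π d
  rw [h1, h2, AddSubgroup.relIndex_map_map_of_injective _ _ hψ, AddSubgroup.relIndex_top_right,
    AddSubgroup.index_pi, Finset.prod_const, Finset.card_univ, Fintype.card_fin]
  rfl

end Fermat.Agent.Nodal
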