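/-
NODAL core (architect helper155): N13c, the numerical hypothesis in terms of ranks.
See `Fermat/Agent/Nodal/README.md` for the blueprint.
-/
import Fermat.Agent.Nodal.RankIndex
import Fermat.Agent.Nodal.Basic

set_option autoImplicit false

noncomputable section

namespace Fermat.Agent.Nodal

open Fermat.Agent.KLB

variable {A P F E : Type*} [CommRing A] [IsDomain A] [IsDiscreteValuationRing A] [Field P]
  [Field F] [Field E] [Algebra A P] [Algebra P F] [Algebra A F] [IsScalarTower A P F]
  [Algebra F E] [Algebra P E] [Algebra A E] [IsScalarTower P F E] [IsScalarTower A P E]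
  [IsScalarTower A F E]
  [FiniteDimensional P F] [FiniteDimensional F E] [FiniteDimensional P E]
  [Algebra.IsSeparable P F] [Algebra.IsSeparable P E] [IsGalois F E]
  {x : P} {π : A} {Og : Subring P} {vert : Finset (ValuationSubring F)}

theorem count_of_finrank [Finite (A ⧸ Ideal.span {π})] (hB : Base A F x π Og vert)
    (hS : Split A E π vert)
    (h : ∀ k₁ : ℕ, ∃ k, k₁ ≤ k ∧ Module.finrank F E * Module.finrank A (Sec A F x k) ≤
      Module.finrank A (Sec A E x k)) : Count A F E x vert := by
  intro k₁
  obtain ⟨k, hk, hrk⟩ := h k₁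
  have hsetF : (↑vert : Set (ValuationSubring F)) =
      {V | V.toSubring.comap (algebraMap P F) = Og} := by
    ext V
    exact hB.vert_iff V
  have hsetE : up E (↑vert : Set (ValuationSubring F)) =
      {W | W.toSubring.comap (algebraMap P E) = Og} := by
    ext W
    exact mem_up_vert_iff hB W
  have hF := relIndex_SecV_eq (E := F) hB.coord hB.irr hB.og
    (fun V hV => hB.unif V ((hB.vert_iff V).mpr hV)) k
  have hE := relIndex_SecV_eq (E := E) hB.coord hB.irr hB.og
    (fun W hW => hS.unif W ((mem_up_vert_iff hB W).mpr hW)) k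
  have hq : 0 < Nat.card (A ⧸ Ideal.span {π}) := Nat.card_pos
  refine ⟨k, hk, ?_, ?_⟩
  · rw [hsetF, hF]
    exact (pow_pos hq _).ne'
  rw [hsetE, hsetF, hF, hE, ← pow_mul, mul_comm]
  exact Nat.pow_le_pow_right hq hrk

end Fermat.Agent.Nodal
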