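/-
NODAL core (architect helper155): N11, a fixed component and a moved component are disjoint.
See `Fermat/Agent/Nodal/README.md` for the blueprint.
-/
import Fermat.Agent.Nodal.CongrChart

set_option autoImplicit false

noncomputable section

namespace Fermat.Agent.Nodal

open Fermat.Agent.KLB

variable {A P F E : Type*} [CommRing A] [IsDomain A] [IsDiscreteValuationRing A] [Field P]
  [Field F] [Field E] [Algebra A P] [Algebra P F] [Algebra A F] [IsScalarTower A P F]
  [Algebra F E] [Algebra P E] [Algebra A E] [IsScalarTower P F E] [IsScalarTower A P E]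
  [IsScalarTower A F E]
  [FiniteDimensional P F] [FiniteDimensional F E] [FiniteDimensional P E]
  [Algebra.IsSeparable P F] [Algebra.IsSeparable P E] [IsGalois F E]
  {x : P} {π : A} {Og : Subring P} {vert : Finset (ValuationSubring F)}

omit [IsDomain A] [IsDiscreteValuationRing A] [Algebra A F] [IsScalarTower A P F]
  [FiniteDimensional P F] [Algebra.IsSeparable P F] in
/-- an automorphism which is trivial on the special fibre fixes the crossing points. -/
theorem fixesCrossings_of_trivial (g₀ : F ≃+* F)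
    (h : ∀ b : F, IsIntegral (Algebra.adjoin A {x}) b → ∀ V ∈ vert, g₀ b - b ∈ V.nonunits) :
    FixesCrossings A F x vert g₀ := by
  intro 𝔪 _ V hV V' _ _ h1 _ b hb b' hb'
  have h2 : b' - b ∈ 𝔪 := h1 _ (by
    have h3 := h b b.2 V hV
    rw [← hb'] at h3
    exact h3)
  have h4 := 𝔪.add_mem h2 hb
  rwa [sub_add_cancel] at h4

/-- the ideal of the elements of a subalgebra `C ⊆ W` which are non-units of `W`. -/
def propagateIdl {R K : Type*} [CommRing R] [Field K] [Algebra R K] (C : Subalgebra R K)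
    (W : ValuationSubring K) (h : ∀ c : C, (c : K) ∈ W) : Ideal C where
  carrier := {c | (c : K) ∈ W.nonunits}
  add_mem' := fun ha hb => add_mem_nonunits W ha hb
  zero_mem' := zero_mem_nonunits W
  smul_mem' := fun a _ hb => mul_mem_nonunits W (h a) hb

theorem mem_propagateIdl {R K : Type*} [CommRing R] [Field K] [Algebra R K] (C : Subalgebra R K)
    (W : ValuationSubring K) (h : ∀ c : C, (c : K) ∈ W) (c : C) :
    c ∈ propagateIdl C W h ↔ (c : K) ∈ W.nonunits := Iff.rfl

theorem comax_of_fixed (hB : Base A F x π Og vert) (hS : Split A E π vert)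
    (hLC : LC A E x vert) (g : E ≃+* E) (g₀ : F ≃+* F)
    (hg : ∀ f : F, g (algebraMap F E f) = algebraMap F E (g₀ f))
    (hint : ∀ c : E, IsIntegral (Algebra.adjoin A {x}) c ↔ IsIntegral (Algebra.adjoin A {x}) (g c))
    (hV : ∀ V ∈ vert, V.comap (g₀ : F →+* F) = V) (hcr : FixesCrossings A F x vert g₀)
    {W W' : ValuationSubring E} (hW : W.comap (algebraMap F E) ∈ vert)
    (hW' : W'.comap (algebraMap F E) ∈ vert)
    (hfix : W.comap (g : E →+* E) = W) (hmov : W'.comap (g : E →+* E) ≠ W') :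
    ∃ c : E, IsIntegral (Algebra.adjoin A {x}) c ∧ c ∈ W.nonunits ∧ c - 1 ∈ W'.nonunits := by
  classical
  have hWW' : W ≠ W' := by
    rintro rfl
    exact hmov hfix
  by_cases hVV : W.comap (algebraMap F E) = W'.comap (algebraMap F E)
  · obtain ⟨c, hc, hc1, hc2⟩ := hLC _ hW' W' rfl
    exact ⟨c, hc, hc2 W hVV hWW', hc1⟩
  -- the charts lie in `W`, `W'`
  have hWv : W.toSubring.comap (algebraMap P E) = Og := (mem_up_vert_iff hB W).mp hW
  have hWv' : W'.toSubring.comap (algebraMap P E) = Og := (mem_up_vert_iff hB W').mp hW'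
  have hCW : ∀ c : integralClosure (Algebra.adjoin A {x}) E, (c : E) ∈ W := fun c =>
    mem_of_isIntegral₁ hB.coord hB.irr hB.og hWv c.2
  have hCW' : ∀ c : integralClosure (Algebra.adjoin A {x}) E, (c : E) ∈ W' := fun c =>
    mem_of_isIntegral₁ hB.coord hB.irr hB.og hWv' c.2
  by_cases htop : propagateIdl _ W hCW ⊔ propagateIdl _ W' hCW' = ⊤
  · have h1 : (1 : integralClosure (Algebra.adjoin A {x}) E) ∈
        propagateIdl _ W hCW ⊔ propagateIdl _ W' hCW' := by rw [htop]; trivial
    obtain ⟨a, ha, b, hb, hab⟩ := Submodule.mem_sup.mp h1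
    refine ⟨a, a.2, ha, ?_⟩
    have h2 : (a : E) - 1 = -(b : E) := by
      have h3 : (a : E) + (b : E) = 1 := by
        have := congrArg (fun t : integralClosure (Algebra.adjoin A {x}) E => (t : E)) hab
        simpa using this
      rw [← h3]; ring
    rw [h2]
    exact neg_mem_nonunits W' hb
  exfalso
  obtain ⟨𝔫, h𝔫, hle⟩ := Ideal.exists_le_maximal _ htop
  have hleW : ∀ c : integralClosure (Algebra.adjoin A {x}) E, (c : E) ∈ W.nonunits → c ∈ 𝔫 :=
    fun c hc => hle (Submodule.mem_sup_left hc)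
  have hleW' : ∀ c : integralClosure (Algebra.adjoin A {x}) E, (c : E) ∈ W'.nonunits → c ∈ 𝔫 :=
    fun c hc => hle (Submodule.mem_sup_right hc)
  -- the ring homomorphism `B → C`
  let φ : integralClosure (Algebra.adjoin A {x}) F →+* integralClosure (Algebra.adjoin A {x}) E :=
    ((algebraMap F E).comp (integralClosure (Algebra.adjoin A {x}) F).val.toRingHom).codRestrict
      (integralClosure (Algebra.adjoin A {x}) E).toSubring (fun b => b.2.algebraMap)
  have hφ : ∀ b, ((φ b : integralClosure (Algebra.adjoin A {x}) E) : E) =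
      algebraMap F E (b : F) := fun b => rfl
  have hφint : φ.IsIntegral := by
    have h1 : (φ.comp (algebraMap (Algebra.adjoin A {x})
        (integralClosure (Algebra.adjoin A {x}) F))).IsIntegral := by
      have h2 : φ.comp (algebraMap (Algebra.adjoin A {x})
          (integralClosure (Algebra.adjoin A {x}) F)) =
          algebraMap (Algebra.adjoin A {x}) (integralClosure (Algebra.adjoin A {x}) E) := by
        ext r
        exact (IsScalarTower.algebraMap_apply (Algebra.adjoin A {x}) F E r).symm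
      rw [h2]
      exact algebraMap_isIntegral_iff.mpr inferInstance
    exact RingHom.IsIntegral.tower_top _ _ h1
  have h𝔪 : (𝔫.comap φ).IsMaximal := Ideal.isMaximal_comap_of_isIntegral_of_isMaximal' φ hφint 𝔫
  have hmem : ∀ b, b ∈ 𝔫.comap φ ↔ φ b ∈ 𝔫 := fun b => Iff.rfl
  have hcr' := hcr (𝔫.comap φ) h𝔪 _ hW _ hW' hVV
    (fun b hb => hleW _ ((mem_nonunits_comap _ _ _).mp hb))
    (fun b hb => hleW' _ ((mem_nonunits_comap _ _ _).mp hb))
  -- `g₀` preserves the chart
  have hint₀ : ∀ f : F, IsIntegral (Algebra.adjoin A {x}) f →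
      IsIntegral (Algebra.adjoin A {x}) (g₀ f) := by
    intro f hf
    have h1 : IsIntegral (Algebra.adjoin A {x}) (g (algebraMap F E f)) :=
      (hint _).mp hf.algebraMap
    rw [hg] at h1
    exact (isIntegral_algebraMap_iff (algebraMap F E).injective).mp h1
  -- the claim
  have hclaim : ∀ c c' : integralClosure (Algebra.adjoin A {x}) E, (c' : E) = g c →
      c' ∈ 𝔫 → c ∈ 𝔫 := by
    intro c c' hcc' hc'
    obtain ⟨f, hf, hcf⟩ := exists_congr_chart hB hS ∅ (Set.empty_subset _) hW
      (Set.notMem_empty _) (W := W) rfl (c := (c : E)) ⟨c.2, fun W₁ hW₁ => absurd hW₁ (by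
        simp [up])⟩
    let fB : integralClosure (Algebra.adjoin A {x}) F := ⟨f, hf.1⟩
    let fB' : integralClosure (Algebra.adjoin A {x}) F := ⟨g₀ f, hint₀ f hf.1⟩
    have hp : c - φ fB ∈ 𝔫 := hleW _ hcf
    have hgp : g ((c : E) - algebraMap F E f) ∈ W.nonunits := by
      have h1 : ((c : E) - algebraMap F E f) ∈ (W.comap (g : E →+* E)).nonunits := by
        rw [hfix]; exact hcf
      exact (mem_nonunits_comap _ _ _).mp h1
    have hp' : c' - φ fB' ∈ 𝔫 := by
      refine hleW _ ?_
      have h1 : ((c' - φ fB' : integralClosure (Algebra.adjoin A {x}) E) : E) =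
          g ((c : E) - algebraMap F E f) := by
        rw [map_sub, hg, ← hcc']
        rfl
      rw [h1]
      exact hgp
    have hfB' : fB' ∈ 𝔫.comap φ := by
      rw [hmem]
      have h1 := 𝔫.sub_mem hc' hp'
      rwa [sub_sub_cancel] at h1
    have hfB : fB ∈ 𝔫.comap φ := by
      by_contra hcon
      obtain ⟨y, i, hi, hyi⟩ := h𝔪.exists_inv hcon
      let y' : integralClosure (Algebra.adjoin A {x}) F := ⟨g₀ y, hint₀ _ y.2⟩
      have hi' : 1 - y' * fB' ∈ 𝔫.comap φ := by
        refine hcr' i hi _ ?_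
        have h1 : i = 1 - y * fB := by rw [← hyi]; ring
        rw [h1]
        simp [y', fB', fB]
      have h1 : (1 : integralClosure (Algebra.adjoin A {x}) F) ∈ 𝔫.comap φ := by
        have h2 := (𝔫.comap φ).add_mem hi' ((𝔫.comap φ).mul_mem_left y' hfB')
        rwa [sub_add_cancel] at h2
      exact h𝔪.ne_top ((Ideal.eq_top_iff_one _).mpr h1)
    have h1 := 𝔫.add_mem hp ((hmem _).mp hfB)
    rwa [sub_add_cancel] at h1
  -- the end
  have hW'' : (W'.comap (g : E →+* E)).comap (algebraMap F E) = W'.comap (algebraMap F E) := by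
    conv_rhs => rw [← hV _ hW']
    ext y
    simp only [ValuationSubring.mem_comap]
    have : (g : E →+* E) (algebraMap F E y) = algebraMap F E ((g₀ : F →+* F) y) := hg y
    rw [this]
  obtain ⟨c₀, hc₀, hc₁, hc₂⟩ := hLC _ hW' W' rfl
  have h1 : g c₀ ∈ W'.nonunits := (mem_nonunits_comap _ _ _).mp (hc₂ _ hW'' hmov)
  have h2 : (⟨c₀, hc₀⟩ : integralClosure (Algebra.adjoin A {x}) E) ∈ 𝔫 :=
    hclaim ⟨c₀, hc₀⟩ ⟨g c₀, (hint _).mp hc₀⟩ rfl (hleW' _ h1)
  have h3 : (⟨c₀, hc₀⟩ : integralClosure (Algebra.adjoin A {x}) E) - 1 ∈ 𝔫 := hleW' _ hc₁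
  have h4 := 𝔫.sub_mem h2 h3
  rw [sub_sub_cancel] at h4
  exact h𝔫.ne_top ((Ideal.eq_top_iff_one _).mpr h4)

end Fermat.Agent.Nodal
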