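/-
NODAL core (architect helper155): N12, the main theorems.
See `Fermat/Agent/Nodal/README.md` for the blueprint.
-/
import Fermat.Agent.Nodal.Comax
import Fermat.Agent.Nodal.Connected
import Fermat.Agent.Nodal.Propagate
import Fermat.Agent.Nodal.Commute

set_option autoImplicit false

noncomputable section

namespace Fermat.Agent.Nodal

open Fermat.Agent.KLB

variable {A P F E : Type*} [CommRing A] [IsDomain A] [IsDiscreteValuationRing A] [Field P]
  [Field F] [Field E] [Algebra A P] [Algebra P F] [Algebra A F] [IsScalarTower A P F]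
  [Algebra F E] [Algebra P E] [Algebra A E] [IsScalarTower P F E] [IsScalarTower A P E]
  [IsScalarTower A F E]
  [FiniteDimensional P F] [FiniteDimensional F E] [FiniteDimensional P E]
  [Algebra.IsSeparable P F] [Algebra.IsSeparable P E] [IsGalois F E]
  {x : P} {π : A} {Og : Subring P} {vert : Finset (ValuationSubring F)}

/-- **(Tor-abs)**: an automorphism of the cover which fixes the components and the crossing points
of the base and ONE component of the cover fixes all components of the cover. -/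
theorem fixes_all (hB : Base A F x π Og vert) (hS : Split A E π vert)
    (hC : Count A F E x vert)
    (hconst : ∀ y : E, IsIntegral A y → y ∈ (algebraMap A E).range)
    (g : E ≃+* E) (g₀ : F ≃+* F)
    (hg : ∀ f : F, g (algebraMap F E f) = algebraMap F E (g₀ f))
    (hint₁ : ∀ c : E, IsIntegral (Algebra.adjoin A {x}) c ↔
      IsIntegral (Algebra.adjoin A {x}) (g c))
    (hint₂ : ∀ c : E, IsIntegral (Algebra.adjoin A {x⁻¹}) c ↔
      IsIntegral (Algebra.adjoin A {x⁻¹}) (g c))
    (hV : ∀ V ∈ vert, V.comap (g₀ : F →+* F) = V)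
    (hcr₁ : FixesCrossings A F x vert g₀) (hcr₂ : FixesCrossings A F x⁻¹ vert g₀)
    (W₀ : ValuationSubring E) (hW₀ : W₀.comap (algebraMap F E) ∈ vert)
    (hfix : W₀.comap (g : E →+* E) = W₀) :
    ∀ W : ValuationSubring E, W.comap (algebraMap F E) ∈ vert → W.comap (g : E →+* E) = W := by
  intro W hW
  by_contra hne
  have key := connected hB hS hconst {W | W.comap (g : E →+* E) = W}
    (fun W₁ hW₁ h₁ W₂ hW₂ h₂ =>
      comax_of_fixed hB hS (lc₁ hB hS hC) g g₀ hg hint₁ hV hcr₁ hW₁ hW₂ h₁ h₂)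
    (fun W₁ hW₁ h₁ W₂ hW₂ h₂ =>
      comax_of_fixed hB.inv hS (lc₂ hB hS hC) g g₀ hg hint₂ hV hcr₂ hW₁ hW₂ h₁ h₂)
    ⟨W₀, hW₀, hfix⟩
  exact hne (key W hW)

/-- **Main theorem of the nodal core.**  `g` acts on the Kummer classes which become trivial in
the completely split cover `E` through the cyclotomic character. -/
theorem tor_abs (hB : Base A F x π Og vert) (hS : Split A E π vert)
    (hC : Count A F E x vert)
    (hconst : ∀ y : E, IsIntegral A y → y ∈ (algebraMap A E).range)
    (g : E ≃+* E) (g₀ : F ≃+* F)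
    (hg : ∀ f : F, g (algebraMap F E f) = algebraMap F E (g₀ f))
    (hint₁ : ∀ c : E, IsIntegral (Algebra.adjoin A {x}) c ↔
      IsIntegral (Algebra.adjoin A {x}) (g c))
    (hint₂ : ∀ c : E, IsIntegral (Algebra.adjoin A {x⁻¹}) c ↔
      IsIntegral (Algebra.adjoin A {x⁻¹}) (g c))
    (hV : ∀ V ∈ vert, V.comap (g₀ : F →+* F) = V)
    (hcr₁ : FixesCrossings A F x vert g₀) (hcr₂ : FixesCrossings A F x⁻¹ vert g₀)
    (W₀ : ValuationSubring E) (hW₀ : W₀.comap (algebraMap F E) ∈ vert)
    (hfix : W₀.comap (g : E →+* E) = W₀)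
    (n ε : ℕ) (hε : ∀ ζ : E, ζ ^ n = 1 → g ζ = ζ ^ ε)
    (y : E) (u : F) (hu : u ≠ 0) (hy : y ^ n = algebraMap F E u) :
    ∃ f : F, g₀ u = u ^ ε * f ^ n :=
  kummer_of_commute g g₀ hg
    (commute_of_fixes_all hS g g₀ hg W₀ hW₀
      (fixes_all hB hS hC hconst g g₀ hg hint₁ hint₂ hV hcr₁ hcr₂ W₀ hW₀ hfix))
    n ε hε y u hu hy

/-- one component: a completely split cover is trivial (third route to KL; also for `n = p`). -/
theorem finrank_eq_one_of_single (hB : Base A F x π Og vert) (hS : Split A E π vert)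
    (hC : Count A F E x vert)
    (hconst : ∀ y : E, IsIntegral A y → y ∈ (algebraMap A E).range)
    (V : ValuationSubring F) (hvert : vert = {V}) : Module.finrank F E = 1 := by
  have hV : V ∈ vert := by rw [hvert]; exact Finset.mem_singleton_self V
  obtain ⟨-, ⟨⟨W₁, hW₁⟩⟩, -⟩ := finite_fibre (E := E) hS hV
  have hover : ∀ W ∈ up E (↑vert : Set (ValuationSubring F)), W.comap (algebraMap F E) = V := by
    intro W hW
    have h : W.comap (algebraMap F E) ∈ vert := hW
    rw [hvert, Finset.mem_singleton] at h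
    exact h
  have hW₁v : W₁.comap (algebraMap F E) ∈ vert := by rw [hW₁]; exact hV
  have key := connected hB hS hconst {W₁}
    (fun W hW hWS W' hW' hW'S => by
      obtain ⟨c, hc, h1, h2⟩ := lc₁ hB hS hC V hV W' (hover W' hW')
      exact ⟨c, hc, h2 W (hover W hW) (fun h => hW'S (h ▸ hWS)), h1⟩)
    (fun W hW hWS W' hW' hW'S => by
      obtain ⟨c, hc, h1, h2⟩ := lc₂ hB hS hC V hV W' (hover W' hW')
      exact ⟨c, hc, h2 W (hover W hW) (fun h => hW'S (h ▸ hWS)), h1⟩)
    ⟨W₁, hW₁v, rfl⟩
  have hγ : ∀ γ : E ≃ₐ[F] E, γ = 1 := by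
    intro γ
    refine hS.free W₁ hW₁v γ ?_
    have h : W₁.comap (γ : E →+* E) ∈ up E (↑vert : Set (ValuationSubring F)) := by
      show (W₁.comap (γ : E →+* E)).comap (algebraMap F E) ∈ vert
      rw [ValuationSubring.comap_comap]
      have h' : ((γ : E →+* E).comp (algebraMap F E)) = algebraMap F E := by
        ext z
        simp
      rw [h']
      exact hW₁v
    exact key _ h
  rw [← IsGalois.card_aut_eq_finrank]
  have : Subsingleton (E ≃ₐ[F] E) := ⟨fun a b => (hγ a).trans (hγ b).symm⟩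
  exact Nat.card_eq_one_iff_unique.mpr ⟨this, ⟨1⟩⟩

end Fermat.Agent.Nodal
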