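/-
NODAL core (architect helper155): N14, complete splitting from the triviality of ONE decomposition group.
See `Fermat/Agent/Nodal/README.md` for the blueprint.

Sub-architect helper122: the proof needs NO discreteness/noetherianity: it works for an arbitrary
valuation subring `V` of `F` (files `Nodal/SplitOfFree/*.lean`, Mathlib only); the only input from
`Base` is `unif`.
-/
import Fermat.Agent.Nodal.Basic
import Fermat.Agent.Nodal.SplitOfFree.Trans
import Fermat.Agent.Nodal.SplitOfFree.ResDeg
import Fermat.Agent.Nodal.SplitOfFree.Unif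

set_option autoImplicit false

noncomputable section

namespace Fermat.Agent.Nodal

open Fermat.Agent.KLB

variable {A P F E : Type*} [CommRing A] [IsDomain A] [IsDiscreteValuationRing A] [Field P]
  [Field F] [Field E] [Algebra A P] [Algebra P F] [Algebra A F] [IsScalarTower A P F]
  [Algebra F E] [Algebra P E] [Algebra A E] [IsScalarTower P F E] [IsScalarTower A P E]
  [IsScalarTower A F E]
  [FiniteDimensional P F] [FiniteDimensional F E] [FiniteDimensional P E]
  [Algebra.IsSeparable P F] [Algebra.IsSeparable P E] [IsGalois F E]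
  {x : P} {π : A} {Og : Subring P} {vert : Finset (ValuationSubring F)}

/-- general valuation theory: `Gal` is transitive on the extensions of `V`, `∑ e f = [E : F]`. -/
theorem split_of_free (hB : Base A F x π Og vert)
    (h : ∀ V ∈ vert, ∃ W₀ : ValuationSubring E, W₀.comap (algebraMap F E) = V ∧
      ∀ γ : E ≃ₐ[F] E, W₀.comap (γ : E →+* E) = W₀ → γ = 1) : Split A E π vert := by
  have hfree : ∀ W : ValuationSubring E, W.comap (algebraMap F E) ∈ vert →
      ∀ γ : E ≃ₐ[F] E, W.comap (γ : E →+* E) = W → γ = 1 := by
    intro W hW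
    obtain ⟨W₀, hW₀, h₀⟩ := h _ hW
    exact SplitOfFree.free_of_free _ W₀ W hW₀ rfl h₀
  refine ⟨?_, ?_, ?_, hfree⟩
  · intro W hW y hy
    rw [IsScalarTower.algebraMap_apply A F E]
    exact SplitOfFree.unif _ W rfl (hfree W hW) _ (hB.unif _ hW) hy
  · intro W hW y hy
    exact SplitOfFree.resdeg _ W rfl (hfree W hW) hy
  · intro W W' _ hWW'
    exact SplitOfFree.exists_comap_eq _ W W' rfl hWW'.symm

end Fermat.Agent.Nodal
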